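/-
Program C (S55), package C1-type leaf (Mathlib only), helper20:
INNER AUTOMORPHISMS ACT TRIVIALLY ON `H²`.

For `σ : G` and a representation `A` of `G`, the pair (conjugation `g ↦ σ g σ⁻¹`,
`a ↦ σ⁻¹ a`) induces the identity on `H²(G, A)` (`map_conj_H2`).  Consumed by the independence of
the local invariant `linvAt` of the chosen embedding (helper88's (LINV-INDEP)).
-/
import Mathlib

set_option autoImplicit false

open CategoryTheory groupCohomology Rep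

noncomputable section

namespace Fermat.Agent.S55.H20

variable {k G : Type} [CommRing k] [Group G]

/-- Conjugation by `σ`, `g ↦ σ g σ⁻¹`, as a group endomorphism. -/
def conjHom (σ : G) : G →* G := (MulAut.conj σ).toMonoidHom

@[simp] theorem conjHom_apply (σ g : G) : conjHom σ g = σ * g * σ⁻¹ := rfl

/-- The coefficient map of conjugation: `a ↦ σ⁻¹ a`. -/
def conjRepHom (A : Rep.{0, 0, 0} k G) (σ : G) : res (conjHom σ) A ⟶ A :=
  Rep.ofHom ⟨A.ρ σ⁻¹, fun g => by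
    ext a
    show A.ρ σ⁻¹ (A.ρ (σ * g * σ⁻¹) a) = A.ρ g (A.ρ σ⁻¹ a)
    rw [← Module.End.mul_apply, ← map_mul, ← Module.End.mul_apply, ← map_mul]
    congr 2
    group⟩

theorem conjRepHom_hom_apply (A : Rep.{0, 0, 0} k G) (σ : G) (a : A) :
    (conjRepHom A σ).hom a = A.ρ σ⁻¹ a := rfl

/-- The bracket identity behind `map_conj_H2`. -/
theorem conj_cocycle_identity (A : Rep.{0, 0, 0} k G) (c : cocycles₂ A) (σ g h : G) :
    - A.ρ (σ * g * σ⁻¹) (c (σ, h) - c (σ * h * σ⁻¹, σ))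
        + (c (σ, g * h) - c (σ * (g * h) * σ⁻¹, σ)) - (c (σ, g) - c (σ * g * σ⁻¹, σ))
      = c (σ * g * σ⁻¹, σ * h * σ⁻¹) - A.ρ σ (c (g, h)) := by
  have h1 := (mem_cocycles₂_iff c).1 c.2 σ g h
  have h2 := (mem_cocycles₂_iff c).1 c.2 (σ * g * σ⁻¹) σ h
  have h3 := (mem_cocycles₂_iff c).1 c.2 (σ * g * σ⁻¹) (σ * h * σ⁻¹) σ
  have e1 : σ * g * σ⁻¹ * σ = σ * g := by group
  have e2 : σ * h * σ⁻¹ * σ = σ * h := by group
  have e3 : σ * g * σ⁻¹ * (σ * h * σ⁻¹) = σ * (g * h) * σ⁻¹ := by group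
  rw [e1] at h2
  rw [e2, e3] at h3
  rw [map_sub]
  have h1' : c (σ, g * h) = c (σ * g, h) + c (σ, g) - A.ρ σ (c (g, h)) := by
    rw [h1]; abel
  have h2' : A.ρ (σ * g * σ⁻¹) (c (σ, h)) =
      c (σ * g, h) + c (σ * g * σ⁻¹, σ) - c (σ * g * σ⁻¹, σ * h) := by
    rw [h2]; abel
  have h3' : A.ρ (σ * g * σ⁻¹) (c (σ * h * σ⁻¹, σ)) =
      c (σ * (g * h) * σ⁻¹, σ) + c (σ * g * σ⁻¹, σ * h * σ⁻¹) - c (σ * g * σ⁻¹, σ * h) := by
    rw [h3]; abel
  rw [h1', h2', h3']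
  abel

/-- **Inner automorphisms act trivially on `H²`.** -/
theorem map_conj_H2 (A : Rep.{0, 0, 0} k G) (σ : G) :
    groupCohomology.map (conjHom σ) (conjRepHom A σ) 2 = 𝟙 (groupCohomology A 2) := by
  apply ModuleCat.hom_ext
  apply LinearMap.ext
  intro x
  induction x using H2_induction_on with
  | h c =>
    refine (H2π_comp_map_apply (conjHom σ) (conjRepHom A σ) c).trans ?_
    show (H2π A).hom _ = (H2π A).hom c
    rw [H2π_eq_iff]
    refine ⟨fun g => - (A.ρ σ⁻¹ (c (σ, g) - c (σ * g * σ⁻¹, σ))), funext fun x => ?_⟩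
    obtain ⟨g, h⟩ := x
    show A.ρ g (-(A.ρ σ⁻¹ (c (σ, h) - c (σ * h * σ⁻¹, σ))))
        - (-(A.ρ σ⁻¹ (c (σ, g * h) - c (σ * (g * h) * σ⁻¹, σ))))
        + (-(A.ρ σ⁻¹ (c (σ, g) - c (σ * g * σ⁻¹, σ))))
      = A.ρ σ⁻¹ (c (σ * g * σ⁻¹, σ * h * σ⁻¹)) - c (g, h)
    have hcomm : ∀ a : A, A.ρ g (A.ρ σ⁻¹ a) = A.ρ σ⁻¹ (A.ρ (σ * g * σ⁻¹) a) := by
      intro a
      rw [← Module.End.mul_apply, ← map_mul, ← Module.End.mul_apply, ← map_mul]
      congr 2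
      group
    have hinv : ∀ a : A, A.ρ σ⁻¹ (A.ρ σ a) = a := by
      intro a
      rw [← Module.End.mul_apply, ← map_mul, inv_mul_cancel, map_one, Module.End.one_apply]
    have key := congrArg (A.ρ σ⁻¹) (conj_cocycle_identity A c σ g h)
    rw [map_sub (A.ρ σ⁻¹) (c (σ * g * σ⁻¹, σ * h * σ⁻¹)), hinv] at key
    rw [← key, map_neg, hcomm]
    simp only [map_sub, map_add, map_neg]
    abel

end Fermat.Agent.S55.H20
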