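/-
Program C (S55), package C5 (semi-local objects in the embedding model, designer helper88):
the leaves (C3) LocalDegree, (C4) PlaceCount and (C5) LocalGalois for a finite Galois layer `K/k`
(helper20).  Mathlib + `H88/SemiLocalDefs` only.

For an embedding `τ' : K →+* PadicAlgCl q`, `K_w = locField q τ' = ℚ_q(τ' K)`,
`k_v = locField q (τ' ∘ algebraMap k K)`, `D_w = decompGroup q k τ'`:
* `localGalois`  : `D_w ≅ Gal(K_w / k_v)` (as a subgroup of `Aut(K_w / ℚ_q)`);
* `localDegree`  : `#D_w · [k_v : ℚ_q] = [K_w : ℚ_q]`;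
* `placeCount`   : `#D_w · #{w' ∣ v} = #Gal(K/k)`.
-/
import Mathlib
import Fermat.Agent.S55.H88.SemiLocalDefs

set_option autoImplicit false

open scoped IntermediateField
open Module

noncomputable section

namespace Fermat.Agent.S55.H20

open Fermat.Agent.S55.H88

variable (q : ℕ) [Fact q.Prime]

/-- (EXT) Every `ℚ_q`-embedding of a subfield of `PadicAlgCl q` into `PadicAlgCl q` extends to an
automorphism of `PadicAlgCl q`. -/
theorem exists_algEquiv_extend (E : IntermediateField ℚ_[q] (PadicAlgCl q))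
    (α : E →ₐ[ℚ_[q]] PadicAlgCl q) :
    ∃ g : PadicAlgCl q ≃ₐ[ℚ_[q]] PadicAlgCl q, ∀ x : E, g x = α x := by
  let g₀ : PadicAlgCl q →ₐ[ℚ_[q]] PadicAlgCl q := α.liftNormal (PadicAlgCl q)
  have hbij : Function.Bijective g₀ := Algebra.IsAlgebraic.algHom_bijective g₀
  refine ⟨AlgEquiv.ofBijective g₀ hbij, fun x => ?_⟩
  exact α.liftNormal_commutes (PadicAlgCl q) x

variable {q} {k K : Type*} [Field k] [Field K] [Algebra k K]

/-- (C1) Two embeddings of `K` that agree on `k` differ by an element of `Gal(K/k)`. -/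
theorem exists_algEquiv_comp [Normal k K] (τ' τ'' : K →+* PadicAlgCl q)
    (h : τ''.comp (algebraMap k K) = τ'.comp (algebraMap k K)) :
    ∃ σ : K ≃ₐ[k] K, τ'' = τ'.comp ((σ : K ≃+* K) : K →+* K) := by
  let _ : Algebra K (PadicAlgCl q) := τ'.toAlgebra
  let _ : Algebra k (PadicAlgCl q) := (τ'.comp (algebraMap k K)).toAlgebra
  have : IsScalarTower k K (PadicAlgCl q) := IsScalarTower.of_algebraMap_eq (fun _ => rfl)
  let f : K →ₐ[k] PadicAlgCl q := { τ'' with commutes' := fun y => RingHom.congr_fun h y }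
  refine ⟨Normal.algHomEquivAut k (PadicAlgCl q) K f, RingHom.ext fun x => ?_⟩
  have h1 := (Normal.algHomEquivAut k (PadicAlgCl q) K).symm_apply_apply f
  have h2 := congrArg (fun F : K →ₐ[k] PadicAlgCl q => F x) h1
  exact h2.symm

/-! ### The action of the decomposition group on the completion -/

section Aut

variable (q) (k)
variable (τ' : K →+* PadicAlgCl q)

/-- If `τ' ∘ σ = g ∘ τ'` then `g` maps `K_w = ℚ_q(τ' K)` onto itself. -/
theorem locField_map_eq (g : PadicAlgCl q ≃ₐ[ℚ_[q]] PadicAlgCl q) (σ : K ≃ₐ[k] K)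
    (hg : τ'.comp ((σ : K ≃+* K) : K →+* K) = (g : PadicAlgCl q →+* PadicAlgCl q).comp τ') :
    (locField q τ').map g.toAlgHom = locField q τ' := by
  unfold locField
  rw [IntermediateField.adjoin_map]
  congr 1
  ext y
  constructor
  · rintro ⟨_, ⟨x, rfl⟩, rfl⟩
    exact ⟨σ x, RingHom.congr_fun hg x⟩
  · rintro ⟨x, rfl⟩
    refine ⟨τ' (σ.symm x), ⟨_, rfl⟩, ?_⟩
    have h1 : τ' (σ (σ.symm x)) = g (τ' (σ.symm x)) := RingHom.congr_fun hg (σ.symm x)
    rw [σ.apply_symm_apply] at h1
    exact h1.symm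

/-- The automorphism of `K_w` induced by an element of the decomposition group. -/
def decompAut (σ : decompGroup q k τ') : locField q τ' ≃ₐ[ℚ_[q]] locField q τ' :=
  (IntermediateField.intermediateFieldMap (Classical.choose σ.2) (locField q τ')).trans
    (IntermediateField.equivOfEq
      (locField_map_eq q k τ' (Classical.choose σ.2) σ.1 (Classical.choose_spec σ.2)))

theorem decompAut_locEmb (σ : decompGroup q k τ') (x : K) :
    decompAut q k τ' σ (locEmb q τ' x) = locEmb q τ' ((σ : K ≃ₐ[k] K) x) := by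
  apply Subtype.ext
  show (Classical.choose σ.2) (τ' x) = τ' (σ.1 x)
  exact (RingHom.congr_fun (Classical.choose_spec σ.2) x).symm

variable {k} in
/-- Two `ℚ_q`-embeddings of `K_w` that agree on (the image of) `K` are equal. -/
theorem algHom_ext_of_locEmb {α β : locField q τ' →ₐ[ℚ_[q]] PadicAlgCl q}
    (h : ∀ x : K, α (locEmb q τ' x) = β (locEmb q τ' x)) : α = β := by
  apply IntermediateField.adjoin_algHom_ext
  rintro _ ⟨x, rfl⟩
  exact h x

variable {k} in
/-- Two `ℚ_q`-automorphisms of `K_w` that agree on (the image of) `K` are equal. -/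
theorem algEquiv_ext_of_locEmb {α β : locField q τ' ≃ₐ[ℚ_[q]] locField q τ'}
    (h : ∀ x : K, α (locEmb q τ' x) = β (locEmb q τ' x)) : α = β := by
  have key : (locField q τ').val.comp (α : locField q τ' →ₐ[ℚ_[q]] locField q τ') =
      (locField q τ').val.comp (β : locField q τ' →ₐ[ℚ_[q]] locField q τ') :=
    algHom_ext_of_locEmb q τ' fun x => congrArg Subtype.val (h x)
  refine AlgEquiv.ext fun y => Subtype.ext ?_
  exact congrArg (fun F : locField q τ' →ₐ[ℚ_[q]] PadicAlgCl q => F y) key

/-- The action of the decomposition group on the completion, as a group homomorphism. -/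
def decompHom : decompGroup q k τ' →* (locField q τ' ≃ₐ[ℚ_[q]] locField q τ') where
  toFun := decompAut q k τ'
  map_one' := algEquiv_ext_of_locEmb q τ' fun x => by
    rw [decompAut_locEmb]; rfl
  map_mul' σ ρ := algEquiv_ext_of_locEmb q τ' fun x => by
    rw [decompAut_locEmb, AlgEquiv.mul_apply, decompAut_locEmb, decompAut_locEmb]; rfl

@[simp] theorem decompHom_apply (σ : decompGroup q k τ') :
    decompHom q k τ' σ = decompAut q k τ' σ := rfl

/-- **(C5) = LOCGAL.**  The decomposition group is the Galois group of the completion: it acts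
on `K_w` compatibly with its action on `K`, faithfully, and its image is the group of
`ℚ_q`-automorphisms of `K_w` that fix the image of `k`. -/
theorem localGalois [Normal k K] :
    ∃ φ : decompGroup q k τ' →* (locField q τ' ≃ₐ[ℚ_[q]] locField q τ'),
      (∀ (σ : decompGroup q k τ') (x : K),
        φ σ (locEmb q τ' x) = locEmb q τ' ((σ : K ≃ₐ[k] K) x)) ∧
      Function.Injective φ ∧
      (∀ α : locField q τ' ≃ₐ[ℚ_[q]] locField q τ', α ∈ φ.range ↔
        ∀ y : k, α (locEmb q τ' (algebraMap k K y)) = locEmb q τ' (algebraMap k K y)) := by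
  refine ⟨decompHom q k τ', decompAut_locEmb q k τ', ?_, ?_⟩
  · intro σ ρ h
    apply Subtype.ext
    apply AlgEquiv.ext
    intro x
    have h1 : locEmb q τ' (σ.1 x) = locEmb q τ' (ρ.1 x) := by
      rw [← decompAut_locEmb, ← decompAut_locEmb]
      exact congrArg (fun F : locField q τ' ≃ₐ[ℚ_[q]] locField q τ' => F (locEmb q τ' x)) h
    exact τ'.injective (congrArg Subtype.val h1)
  · intro α
    constructor
    · rintro ⟨σ, rfl⟩ y
      show decompAut q k τ' σ _ = _
      rw [decompAut_locEmb, AlgEquiv.commutes]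
    · intro hα
      let τ'' : K →+* PadicAlgCl q :=
        ((locField q τ').val.comp
          (α : locField q τ' →ₐ[ℚ_[q]] locField q τ')).toRingHom.comp (locEmb q τ')
      have hτ : τ''.comp (algebraMap k K) = τ'.comp (algebraMap k K) :=
        RingHom.ext fun y => congrArg Subtype.val (hα y)
      obtain ⟨σ, hσ⟩ := exists_algEquiv_comp τ' τ'' hτ
      obtain ⟨g, hg⟩ := exists_algEquiv_extend q (locField q τ')
        ((locField q τ').val.comp (α : locField q τ' →ₐ[ℚ_[q]] locField q τ'))
      have hσD : σ ∈ decompGroup q k τ' := ⟨g, RingHom.ext fun x => by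
        have h1 : τ'' x = τ' (σ x) := RingHom.congr_fun hσ x
        have h2 := hg (locEmb q τ' x)
        show τ' (σ x) = g (τ' x)
        rw [← h1]
        exact h2.symm⟩
      refine ⟨⟨σ, hσD⟩, algEquiv_ext_of_locEmb q τ' fun x => ?_⟩
      show decompAut q k τ' ⟨σ, hσD⟩ (locEmb q τ' x) = α (locEmb q τ' x)
      rw [decompAut_locEmb]
      apply Subtype.ext
      exact (RingHom.congr_fun hσ x).symm

end Aut

/-! ### The local degree -/

section Degree

variable (q) (k)
variable (τ' : K →+* PadicAlgCl q)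

/-- `k_v ⊆ K_w`. -/
theorem locField_comp_le : locField q (τ'.comp (algebraMap k K)) ≤ locField q τ' := by
  unfold locField
  apply IntermediateField.adjoin.mono
  rintro _ ⟨y, rfl⟩
  exact ⟨algebraMap k K y, rfl⟩

/-- The automorphisms of `K_w` coming from the decomposition group fix `k_v` pointwise. -/
theorem decompAut_fix (σ : decompGroup q k τ') (y : locField q (τ'.comp (algebraMap k K))) :
    ((decompAut q k τ' σ ⟨y.1, locField_comp_le q k τ' y.2⟩ : locField q τ') : PadicAlgCl q)
      = y.1 := by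
  have key : ((locField q τ').val.comp
      (decompAut q k τ' σ : locField q τ' →ₐ[ℚ_[q]] locField q τ')).comp
        (IntermediateField.inclusion (locField_comp_le q k τ')) =
      (locField q (τ'.comp (algebraMap k K))).val := by
    apply IntermediateField.adjoin_algHom_ext
    rintro _ ⟨y, rfl⟩
    have h1 := decompAut_locEmb q k τ' σ (algebraMap k K y)
    rw [AlgEquiv.commutes] at h1
    exact congrArg Subtype.val h1
  exact congrArg (fun F : locField q (τ'.comp (algebraMap k K)) →ₐ[ℚ_[q]] PadicAlgCl q => F y) key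

/-- The `k_v`-embedding of `K_w` attached to an element of the decomposition group. -/
def decompEmb (σ : decompGroup q k τ') :
    IntermediateField.extendScalars (locField_comp_le q k τ')
      →ₐ[locField q (τ'.comp (algebraMap k K))] PadicAlgCl q where
  toFun x := ((decompAut q k τ' σ ⟨x.1, x.2⟩ : locField q τ') : PadicAlgCl q)
  map_one' := by
    show ((decompAut q k τ' σ 1 : locField q τ') : PadicAlgCl q) = 1
    rw [map_one]; rfl
  map_mul' x y := by
    show ((decompAut q k τ' σ (⟨x.1, x.2⟩ * ⟨y.1, y.2⟩) : locField q τ') : PadicAlgCl q) = _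
    rw [map_mul]; rfl
  map_zero' := by
    show ((decompAut q k τ' σ 0 : locField q τ') : PadicAlgCl q) = 0
    rw [map_zero]; rfl
  map_add' x y := by
    show ((decompAut q k τ' σ (⟨x.1, x.2⟩ + ⟨y.1, y.2⟩) : locField q τ') : PadicAlgCl q) = _
    rw [map_add]; rfl
  commutes' y := decompAut_fix q k τ' σ y

theorem decompEmb_apply (σ : decompGroup q k τ')
    (x : IntermediateField.extendScalars (locField_comp_le q k τ')) :
    decompEmb q k τ' σ x = ((decompAut q k τ' σ ⟨x.1, x.2⟩ : locField q τ') : PadicAlgCl q) :=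
  rfl

theorem decompEmb_injective : Function.Injective (decompEmb q k τ') := by
  intro σ ρ h
  apply Subtype.ext
  apply AlgEquiv.ext
  intro x
  have h0 := congrArg (fun F : IntermediateField.extendScalars (locField_comp_le q k τ')
      →ₐ[locField q (τ'.comp (algebraMap k K))] PadicAlgCl q => F ⟨τ' x, (locEmb q τ' x).2⟩) h
  have h1 : ((decompAut q k τ' σ (locEmb q τ' x) : locField q τ') : PadicAlgCl q) =
      ((decompAut q k τ' ρ (locEmb q τ' x) : locField q τ') : PadicAlgCl q) := h0
  rw [decompAut_locEmb, decompAut_locEmb] at h1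
  exact τ'.injective h1

theorem decompEmb_surjective [Normal k K] : Function.Surjective (decompEmb q k τ') := by
  intro β
  let α₀ : locField q τ' →ₐ[ℚ_[q]] PadicAlgCl q :=
    { toFun := fun x => β ⟨x.1, x.2⟩
      map_one' := map_one β
      map_mul' := fun x y => map_mul β ⟨x.1, x.2⟩ ⟨y.1, y.2⟩
      map_zero' := map_zero β
      map_add' := fun x y => map_add β ⟨x.1, x.2⟩ ⟨y.1, y.2⟩
      commutes' := fun c =>
        β.commutes (algebraMap ℚ_[q] (locField q (τ'.comp (algebraMap k K))) c) }
  let τ'' : K →+* PadicAlgCl q := α₀.toRingHom.comp (locEmb q τ')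
  have hτ : τ''.comp (algebraMap k K) = τ'.comp (algebraMap k K) :=
    RingHom.ext fun y => β.commutes (locEmb q (τ'.comp (algebraMap k K)) y)
  obtain ⟨σ, hσ⟩ := exists_algEquiv_comp τ' τ'' hτ
  obtain ⟨g, hg⟩ := exists_algEquiv_extend q (locField q τ') α₀
  have hσD : σ ∈ decompGroup q k τ' := ⟨g, RingHom.ext fun x => by
    have h1 : τ'' x = τ' (σ x) := RingHom.congr_fun hσ x
    have h2 := hg (locEmb q τ' x)
    show τ' (σ x) = g (τ' x)
    rw [← h1]
    exact h2.symm⟩
  refine ⟨⟨σ, hσD⟩, ?_⟩
  have key : (locField q τ').val.comp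
      (decompAut q k τ' ⟨σ, hσD⟩ : locField q τ' →ₐ[ℚ_[q]] locField q τ') = α₀ :=
    algHom_ext_of_locEmb q τ' fun x => by
      have h1 : τ'' x = τ' (σ x) := RingHom.congr_fun hσ x
      have h2 := decompAut_locEmb q k τ' ⟨σ, hσD⟩ x
      show ((decompAut q k τ' ⟨σ, hσD⟩ (locEmb q τ' x) : locField q τ') : PadicAlgCl q) = τ'' x
      rw [h2, h1]
      rfl
  refine AlgHom.ext fun x => ?_
  exact congrArg (fun F : locField q τ' →ₐ[ℚ_[q]] PadicAlgCl q => F ⟨x.1, x.2⟩) key

/-- `K_w` is finite over `k_v` when `K` is finite over `k`. -/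
theorem finiteDimensional_extendScalars [FiniteDimensional k K] :
    FiniteDimensional (locField q (τ'.comp (algebraMap k K)))
      (IntermediateField.extendScalars (locField_comp_le q k τ')) := by
  classical
  let b := Module.finBasis k K
  let S : Set (PadicAlgCl q) := Set.range (fun i => τ' (b i))
  have hSint : ∀ x ∈ S, IsIntegral (locField q (τ'.comp (algebraMap k K))) x := by
    rintro _ ⟨i, rfl⟩
    have hi : IsIntegral k (b i) := Algebra.IsIntegral.isIntegral (b i)
    exact hi.map_of_comp_eq (locEmb q (τ'.comp (algebraMap k K))) τ' (RingHom.ext fun y => rfl)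
  have : Finite S := (Set.finite_range _).to_subtype
  have hfin : FiniteDimensional (locField q (τ'.comp (algebraMap k K)))
      (IntermediateField.adjoin (locField q (τ'.comp (algebraMap k K))) S) :=
    IntermediateField.finiteDimensional_adjoin hSint
  have hmem : ∀ x : K, τ' x ∈ IntermediateField.adjoin (locField q (τ'.comp (algebraMap k K))) S := by
    intro x
    rw [← b.sum_repr x, map_sum]
    refine sum_mem fun i _ => ?_
    rw [Algebra.smul_def, map_mul]
    refine mul_mem ?_ (IntermediateField.subset_adjoin _ _ ⟨i, rfl⟩)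
    exact IntermediateField.algebraMap_mem _
      (locEmb q (τ'.comp (algebraMap k K)) (b.repr x i))
  have hle0 : locField q τ' ≤
      (IntermediateField.adjoin (locField q (τ'.comp (algebraMap k K))) S).restrictScalars ℚ_[q] := by
    refine IntermediateField.adjoin_le_iff.mpr ?_
    rintro _ ⟨x, rfl⟩
    exact hmem x
  have hle : IntermediateField.extendScalars (locField_comp_le q k τ') ≤
      IntermediateField.adjoin (locField q (τ'.comp (algebraMap k K))) S := fun x hx => hle0 hx
  exact Module.Finite.of_injective (IntermediateField.inclusion hle).toLinearMap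
    (IntermediateField.inclusion_injective hle)

/-- `#D_w = [K_w : k_v]`. -/
theorem card_decompGroup [FiniteDimensional k K] [Normal k K] :
    Nat.card (decompGroup q k τ') =
      finrank (locField q (τ'.comp (algebraMap k K)))
        (IntermediateField.extendScalars (locField_comp_le q k τ')) := by
  have := finiteDimensional_extendScalars q k τ'
  rw [Nat.card_congr (Equiv.ofBijective (decompEmb q k τ')
    ⟨decompEmb_injective q k τ', decompEmb_surjective q k τ'⟩), Nat.card_eq_fintype_card]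
  exact AlgHom.card _ _ _

/-- **(C3) Local degree**: `#D_w · [k_v : ℚ_q] = [K_w : ℚ_q]`. -/
theorem localDegree [FiniteDimensional k K] [Normal k K] :
    Nat.card (decompGroup q k τ') * finrank ℚ_[q] (locField q (τ'.comp (algebraMap k K)))
      = finrank ℚ_[q] (locField q τ') := by
  rw [card_decompGroup q k τ', mul_comm,
    ← IntermediateField.relfinrank_eq_finrank_of_le (locField_comp_le q k τ')]
  exact IntermediateField.finrank_bot_mul_relfinrank (locField_comp_le q k τ')

end Degree

/-! ### The number of places above a place -/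

section Count

variable (q) (k) (K)

/-- Restriction of places from `K` to `k` (verbatim `H88.PlaceAbove.restrict` of helper88's
`SemiLocalSpec`). -/
def restrictPlace : PlaceAbove q K → PlaceAbove q k :=
  Quotient.map' (fun τ => τ.comp (algebraMap k K)) (by
    rintro τ τ' ⟨g, rfl⟩
    exact ⟨g, by rw [RingHom.comp_assoc]⟩)

variable {K}
variable (τ' : K →+* PadicAlgCl q)

theorem restrictPlace_placeOf (τ'' : K →+* PadicAlgCl q) :
    restrictPlace q k K (placeOf q τ'') = placeOf q (τ''.comp (algebraMap k K)) := rfl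

theorem placeOf_eq_iff {F : Type*} [Field F] (τ₁ τ₂ : F →+* PadicAlgCl q) :
    placeOf q τ₁ = placeOf q τ₂ ↔ ∃ g : PadicAlgCl q ≃ₐ[ℚ_[q]] PadicAlgCl q,
      τ₂ = (g : PadicAlgCl q →+* PadicAlgCl q).comp τ₁ :=
  Quotient.eq (r := placeSetoid q F)

/-- The place of `τ' ∘ σ⁻¹`, as a place above the place of `τ'|k`. -/
def conjPlace (σ : K ≃ₐ[k] K) :
    {w : PlaceAbove q K //
      restrictPlace q k K w = placeOf q (τ'.comp (algebraMap k K))} :=
  ⟨placeOf q (τ'.comp (((σ⁻¹ : K ≃ₐ[k] K) : K ≃+* K) : K →+* K)), by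
    rw [restrictPlace_placeOf]
    congr 1
    exact RingHom.ext fun y => congrArg τ' ((σ⁻¹ : K ≃ₐ[k] K).commutes y)⟩

theorem conjPlace_eq_iff (σ₁ σ₂ : K ≃ₐ[k] K) :
    conjPlace q k τ' σ₁ = conjPlace q k τ' σ₂ ↔ σ₁⁻¹ * σ₂ ∈ decompGroup q k τ' := by
  rw [Subtype.ext_iff]
  show placeOf q _ = placeOf q _ ↔ _
  rw [placeOf_eq_iff]
  constructor
  · rintro ⟨g, hg⟩
    refine (decompGroup q k τ').inv_mem_iff.mp ⟨g, RingHom.ext fun y => ?_⟩
    have h1 : τ' (σ₂⁻¹ (σ₁ y)) = g (τ' (σ₁⁻¹ (σ₁ y))) := RingHom.congr_fun hg (σ₁ y)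
    have h2 : σ₁⁻¹ (σ₁ y) = y := σ₁.symm_apply_apply y
    rw [h2] at h1
    have h3 : ((σ₁⁻¹ * σ₂)⁻¹ : K ≃ₐ[k] K) y = σ₂⁻¹ (σ₁ y) := by
      rw [mul_inv_rev, inv_inv]; rfl
    show τ' (((σ₁⁻¹ * σ₂)⁻¹ : K ≃ₐ[k] K) y) = g (τ' y)
    rw [h3, h1]
  · intro h
    obtain ⟨g, hg⟩ := (decompGroup q k τ').inv_mem h
    refine ⟨g, RingHom.ext fun y => ?_⟩
    have h1 : τ' (((σ₁⁻¹ * σ₂)⁻¹ : K ≃ₐ[k] K) (σ₁⁻¹ y)) = g (τ' (σ₁⁻¹ y)) :=
      RingHom.congr_fun hg (σ₁⁻¹ y)
    have h3 : ((σ₁⁻¹ * σ₂)⁻¹ : K ≃ₐ[k] K) (σ₁⁻¹ y) = σ₂⁻¹ y := by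
      rw [mul_inv_rev, inv_inv]
      show σ₂⁻¹ (σ₁ (σ₁⁻¹ y)) = σ₂⁻¹ y
      rw [show σ₁ (σ₁⁻¹ y) = y from σ₁.apply_symm_apply y]
    rw [h3] at h1
    exact h1

theorem conjPlace_surjective [Normal k K] : Function.Surjective (conjPlace q k τ') := by
  rintro ⟨w, hw⟩
  induction w using Quotient.inductionOn with
  | _ τ'' =>
    have hw' : placeOf q (τ''.comp (algebraMap k K)) = placeOf q (τ'.comp (algebraMap k K)) := hw
    obtain ⟨g, hg⟩ := (placeOf_eq_iff q _ _).mp hw'
    -- `(g ∘ τ'')|k = τ'|k`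
    have h1 : ((g : PadicAlgCl q →+* PadicAlgCl q).comp τ'').comp (algebraMap k K) =
        τ'.comp (algebraMap k K) := by
      rw [RingHom.comp_assoc]; exact hg.symm
    obtain ⟨σ, hσ⟩ := exists_algEquiv_comp τ' _ h1
    refine ⟨σ⁻¹, Subtype.ext ?_⟩
    show placeOf q _ = placeOf q τ''
    rw [placeOf_eq_iff]
    refine ⟨g⁻¹, RingHom.ext fun y => ?_⟩
    have h2 : g (τ'' y) = τ' (σ y) := RingHom.congr_fun hσ y
    show τ'' y = g⁻¹ (τ' (((σ⁻¹)⁻¹ : K ≃ₐ[k] K) y))
    rw [inv_inv, ← h2]
    exact (g.symm_apply_apply _).symm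

/-- **(C4) Place count**: `#D_w · #{w' ∣ v} = #Gal(K/k)`. -/
theorem placeCount [Normal k K] :
    Nat.card (decompGroup q k τ') *
        Nat.card {w : PlaceAbove q K //
          restrictPlace q k K w = placeOf q (τ'.comp (algebraMap k K))}
      = Nat.card (K ≃ₐ[k] K) := by
  have hwd : ∀ a b : K ≃ₐ[k] K, (QuotientGroup.leftRel (decompGroup q k τ')) a b →
      conjPlace q k τ' a = conjPlace q k τ' b := fun a b hab =>
    (conjPlace_eq_iff q k τ' a b).mpr (QuotientGroup.leftRel_apply.mp hab)
  let F : (K ≃ₐ[k] K) ⧸ decompGroup q k τ' →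
      {w : PlaceAbove q K // restrictPlace q k K w = placeOf q (τ'.comp (algebraMap k K))} :=
    Quotient.lift (conjPlace q k τ') hwd
  have hF : Function.Bijective F := by
    constructor
    · intro a b
      induction a using Quotient.inductionOn with
      | _ a =>
        induction b using Quotient.inductionOn with
        | _ b =>
          intro hab
          exact Quotient.sound (QuotientGroup.leftRel_apply.mpr
            ((conjPlace_eq_iff q k τ' a b).mp hab))
    · intro w
      obtain ⟨σ, rfl⟩ := conjPlace_surjective q k τ' w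
      exact ⟨Quotient.mk _ σ, rfl⟩
  rw [← Nat.card_congr (Equiv.ofBijective F hF), mul_comm]
  exact (Subgroup.card_eq_card_quotient_mul_card_subgroup (decompGroup q k τ')).symm

end Count

end Fermat.Agent.S55.H20
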