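/-
Program C (S55), package C3 (local fields in the `PadicAlgCl q` model, designer helper66),
leaf (INV-TRANSPORT), helper20:

THE LOCAL INVARIANT IS INVARIANT UNDER TRANSPORT BY `g ∈ Gal(Ω/ℚ_q)`.

Let `F₁, F₂` be embedded local fields, `g : Ω ≃ₐ[ℚ_q] Ω`, `e : F₁ ≃+* F₂` compatible with `g`
(`IsCompat`), and `L₁, L₂` intermediate fields with `L₂ = g(L₁)` (`IsImage`).  Then `g` induces
`transH2 : H²(Gal(L₁/F₁), L₁ˣ) ⟶ H²(Gal(L₂/F₂), L₂ˣ)` and
`inv q L₂ (transH2 x) = inv q L₁ x` (`inv_transH2`).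
Consumed by the independence of `H88.linvAt` of the chosen embedding ((LINV-INDEP)).
-/
import Mathlib
import Fermat.Agent.S55.H66.C3Main

set_option autoImplicit false

open scoped IntermediateField
open CategoryTheory

noncomputable section

namespace Fermat.Agent.S55.H20

open Fermat.Agent.S55.H66

variable {q : ℕ} [Fact q.Prime]

section Datum

variable {F₁ F₂ : Type} [Field F₁] [Field F₂] [Algebra F₁ (PadicAlgCl q)]
  [Algebra F₂ (PadicAlgCl q)]

/-- `e : F₁ ≃+* F₂` is compatible with the automorphism `g` of `Ω`. -/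
def IsCompat (g : PadicAlgCl q ≃ₐ[ℚ_[q]] PadicAlgCl q) (e : F₁ ≃+* F₂) : Prop :=
  ∀ x : F₁, algebraMap F₂ (PadicAlgCl q) (e x) = g (algebraMap F₁ (PadicAlgCl q) x)

/-- `L₂ = g(L₁)`. -/
def IsImage (g : PadicAlgCl q ≃ₐ[ℚ_[q]] PadicAlgCl q)
    (L₁ : IntermediateField F₁ (PadicAlgCl q)) (L₂ : IntermediateField F₂ (PadicAlgCl q)) :
    Prop :=
  ∀ x : PadicAlgCl q, x ∈ L₁ ↔ g x ∈ L₂

variable {g : PadicAlgCl q ≃ₐ[ℚ_[q]] PadicAlgCl q} {e : F₁ ≃+* F₂}
variable {L₁ E₁ : IntermediateField F₁ (PadicAlgCl q)}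
  {L₂ E₂ : IntermediateField F₂ (PadicAlgCl q)}

theorem IsCompat.symm (he : IsCompat g e) : IsCompat g.symm e.symm := by
  intro x
  apply g.injective
  rw [AlgEquiv.apply_symm_apply, ← he, RingEquiv.apply_symm_apply]

theorem IsImage.symm (hL : IsImage g L₁ L₂) : IsImage g.symm L₂ L₁ := by
  intro x
  rw [hL, AlgEquiv.apply_symm_apply]

theorem IsImage.symm_mem (hL : IsImage g L₁ L₂) {y : PadicAlgCl q} (hy : y ∈ L₂) :
    g.symm y ∈ L₁ := (hL.symm y).1 hy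

/-- The ring isomorphism `L₁ ≃ L₂` induced by `g`. -/
def fieldEquiv (hL : IsImage g L₁ L₂) : L₁ ≃+* L₂ where
  toFun x := ⟨g x, (hL x).1 x.2⟩
  invFun y := ⟨g.symm y, hL.symm_mem y.2⟩
  left_inv _ := Subtype.ext (g.symm_apply_apply _)
  right_inv _ := Subtype.ext (g.apply_symm_apply _)
  map_mul' _ _ := Subtype.ext (map_mul g _ _)
  map_add' _ _ := Subtype.ext (map_add g _ _)

@[simp] theorem coe_fieldEquiv (hL : IsImage g L₁ L₂) (x : L₁) :
    ((fieldEquiv hL x : L₂) : PadicAlgCl q) = g x := rfl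

@[simp] theorem coe_fieldEquiv_symm (hL : IsImage g L₁ L₂) (y : L₂) :
    (((fieldEquiv hL).symm y : L₁) : PadicAlgCl q) = g.symm y := rfl

theorem fieldEquiv_algebraMap (he : IsCompat g e) (hL : IsImage g L₁ L₂) (x : F₁) :
    fieldEquiv hL (algebraMap F₁ L₁ x) = algebraMap F₂ L₂ (e x) :=
  Subtype.ext (he x).symm

/-- The automorphism of `L₁/F₁` corresponding to an automorphism of `L₂/F₂`. -/
def galMapFun (he : IsCompat g e) (hL : IsImage g L₁ L₂) (α : L₂ ≃ₐ[F₂] L₂) : L₁ ≃ₐ[F₁] L₁ :=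
  AlgEquiv.ofRingEquiv
    (f := (fieldEquiv hL).trans (α.toRingEquiv.trans (fieldEquiv hL).symm))
    (fun x => by
      show (fieldEquiv hL).symm (α (fieldEquiv hL (algebraMap F₁ L₁ x))) = algebraMap F₁ L₁ x
      rw [fieldEquiv_algebraMap he hL, α.commutes, ← fieldEquiv_algebraMap he hL,
        RingEquiv.symm_apply_apply])

theorem fieldEquiv_galMapFun (he : IsCompat g e) (hL : IsImage g L₁ L₂) (α : L₂ ≃ₐ[F₂] L₂)
    (x : L₁) : fieldEquiv hL (galMapFun he hL α x) = α (fieldEquiv hL x) :=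
  (fieldEquiv hL).apply_symm_apply _

/-- `Gal(L₂/F₂) →* Gal(L₁/F₁)`, `α ↦ g⁻¹ ∘ α ∘ g`. -/
def galMap (he : IsCompat g e) (hL : IsImage g L₁ L₂) : (L₂ ≃ₐ[F₂] L₂) →* (L₁ ≃ₐ[F₁] L₁) where
  toFun := galMapFun he hL
  map_one' := by
    refine AlgEquiv.ext fun x => (fieldEquiv hL).injective ?_
    rw [fieldEquiv_galMapFun]
    rfl
  map_mul' α β := by
    refine AlgEquiv.ext fun x => (fieldEquiv hL).injective ?_
    show fieldEquiv hL (galMapFun he hL (α * β) x) =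
      fieldEquiv hL (galMapFun he hL α (galMapFun he hL β x))
    rw [fieldEquiv_galMapFun, fieldEquiv_galMapFun, fieldEquiv_galMapFun]
    rfl

theorem fieldEquiv_galMap (he : IsCompat g e) (hL : IsImage g L₁ L₂) (α : L₂ ≃ₐ[F₂] L₂)
    (x : L₁) : fieldEquiv hL (galMap he hL α x) = α (fieldEquiv hL x) :=
  fieldEquiv_galMapFun he hL α x

theorem coe_galMap (he : IsCompat g e) (hL : IsImage g L₁ L₂) (α : L₂ ≃ₐ[F₂] L₂) (x : L₁) :
    g ((galMap he hL α x : L₁) : PadicAlgCl q) = ((α (fieldEquiv hL x) : L₂) : PadicAlgCl q) :=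
  congrArg Subtype.val (fieldEquiv_galMap he hL α x)

theorem galMap_injective (he : IsCompat g e) (hL : IsImage g L₁ L₂) :
    Function.Injective (galMap he hL) := by
  intro α β h
  refine AlgEquiv.ext fun y => ?_
  obtain ⟨x, rfl⟩ := (fieldEquiv hL).surjective y
  rw [← fieldEquiv_galMap he hL, ← fieldEquiv_galMap he hL, h]

theorem galMap_symm_galMap (he : IsCompat g e) (hL : IsImage g L₁ L₂) (β : L₁ ≃ₐ[F₁] L₁) :
    galMap he hL (galMap he.symm hL.symm β) = β := by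
  refine AlgEquiv.ext fun x => (fieldEquiv hL).injective ?_
  rw [fieldEquiv_galMap]
  apply Subtype.ext
  have h1 := coe_galMap he.symm hL.symm β (fieldEquiv hL x)
  -- `g.symm (galMap' β (g x)) = β (g.symm (g x))`
  have h2 : ((fieldEquiv hL.symm (fieldEquiv hL x) : L₁)) = x :=
    Subtype.ext (g.symm_apply_apply _)
  rw [h2] at h1
  show ((galMap he.symm hL.symm β (fieldEquiv hL x) : L₂) : PadicAlgCl q) = g (β x)
  rw [← h1, AlgEquiv.apply_symm_apply]

theorem galMap_surjective (he : IsCompat g e) (hL : IsImage g L₁ L₂) :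
    Function.Surjective (galMap he hL) :=
  fun β => ⟨galMap he.symm hL.symm β, galMap_symm_galMap he hL β⟩

/-- `L₁ˣ → L₂ˣ`, written additively. -/
def transUnits (hL : IsImage g L₁ L₂) : Additive L₁ˣ →ₗ[ℤ] Additive L₂ˣ :=
  (MonoidHom.toAdditive (Units.map ((fieldEquiv hL : L₁ →+* L₂) : L₁ →* L₂))).toIntLinearMap

/-- The coefficient map of the transport. -/
def transRep (he : IsCompat g e) (hL : IsImage g L₁ L₂) :
    Rep.res (galMap he hL) (Rep.ofAlgebraAutOnUnits F₁ L₁) ⟶ Rep.ofAlgebraAutOnUnits F₂ L₂ :=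
  Rep.ofHom ⟨transUnits hL, fun α => LinearMap.ext fun u => congrArg Additive.ofMul (Units.ext
    (fieldEquiv_galMap he hL α ((Additive.toMul (α := L₁ˣ) u : L₁ˣ) : L₁)))⟩

/-- **Transport of structure on `H²`** along `g`. -/
def transH2 (he : IsCompat g e) (hL : IsImage g L₁ L₂) :
    groupCohomology.H2 (Rep.ofAlgebraAutOnUnits F₁ L₁) ⟶
      groupCohomology.H2 (Rep.ofAlgebraAutOnUnits F₂ L₂) :=
  groupCohomology.map (galMap he hL) (transRep he hL) 2

end Datum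

/-! ### Compatibility of the transport with inflation -/

section Infl

variable {F₁ F₂ : Type} [Field F₁] [Field F₂] [Algebra F₁ (PadicAlgCl q)]
  [Algebra F₂ (PadicAlgCl q)]
variable {g : PadicAlgCl q ≃ₐ[ℚ_[q]] PadicAlgCl q} {e : F₁ ≃+* F₂}
variable {L₁ E₁ : IntermediateField F₁ (PadicAlgCl q)}
  {L₂ E₂ : IntermediateField F₂ (PadicAlgCl q)}

theorem IsImage.le (hL : IsImage g L₁ L₂) (hE : IsImage g E₁ E₂) (h : L₁ ≤ E₁) : L₂ ≤ E₂ := by
  intro y hy
  have h2 := (hE _).1 (h (hL.symm_mem hy))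
  rwa [g.apply_symm_apply] at h2

theorem resHom_galMap (he : IsCompat g e) (hL : IsImage g L₁ L₂) (hE : IsImage g E₁ E₂)
    [Normal F₁ L₁] [Normal F₂ L₂] (h₁ : L₁ ≤ E₁) (h₂ : L₂ ≤ E₂) :
    (resHom h₁).comp (galMap he hE) = (galMap he hL).comp (resHom h₂) := by
  refine MonoidHom.ext fun α => AlgEquiv.ext fun x => Subtype.ext (g.injective ?_)
  show g ((resHom h₁ (galMap he hE α) x : L₁) : PadicAlgCl q) =
    g ((galMap he hL (resHom h₂ α) x : L₁) : PadicAlgCl q)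
  rw [resHom_apply, coe_galMap, coe_galMap, resHom_apply]
  rfl

/-- **The transport commutes with inflation.** -/
theorem inflH2_transH2 (he : IsCompat g e) (hL : IsImage g L₁ L₂) (hE : IsImage g E₁ E₂)
    [Normal F₁ L₁] [Normal F₂ L₂] (h₁ : L₁ ≤ E₁) (h₂ : L₂ ≤ E₂) :
    inflH2 h₁ ≫ transH2 he hE = transH2 he hL ≫ inflH2 h₂ := by
  unfold inflH2 transH2
  rw [← groupCohomology.map_comp, ← groupCohomology.map_comp]
  refine groupCohomology.map_congr (resHom_galMap he hL hE h₁ h₂) ?_ 2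
  refine LinearMap.ext fun u => ?_
  rfl

theorem inflH2_transH2_apply (he : IsCompat g e) (hL : IsImage g L₁ L₂) (hE : IsImage g E₁ E₂)
    [Normal F₁ L₁] [Normal F₂ L₂] (h₁ : L₁ ≤ E₁) (h₂ : L₂ ≤ E₂)
    (x : groupCohomology.H2 (Rep.ofAlgebraAutOnUnits F₁ L₁)) :
    (transH2 he hE).hom ((inflH2 h₁).hom x) = (inflH2 h₂).hom ((transH2 he hL).hom x) := by
  have := congrArg (fun F => F.hom x) (inflH2_transH2 he hL hE h₁ h₂)
  exact this

end Infl

/-! ### Norms, residue cardinality, valuation -/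

section Norm

variable {F₁ F₂ : Type} [Field F₁] [Field F₂] [Algebra F₁ (PadicAlgCl q)]
  [Algebra F₂ (PadicAlgCl q)]
variable {g : PadicAlgCl q ≃ₐ[ℚ_[q]] PadicAlgCl q} {e : F₁ ≃+* F₂}
variable {L₁ M₁ : IntermediateField F₁ (PadicAlgCl q)}
  {L₂ M₂ : IntermediateField F₂ (PadicAlgCl q)}

/-- Automorphisms of `Ω/ℚ_q` are isometries. -/
theorem norm_algEquiv (g : PadicAlgCl q ≃ₐ[ℚ_[q]] PadicAlgCl q) (y : PadicAlgCl q) :
    ‖g y‖ = ‖y‖ :=
  H24.norm_eq_of_minpoly_eq (minpoly.algEquiv_eq g y)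

theorem IsCompat.nrm_eq (he : IsCompat g e) (x : F₁) : nrm q (e x) = nrm q x := by
  show ‖algebraMap F₂ (PadicAlgCl q) (e x)‖ = ‖algebraMap F₁ (PadicAlgCl q) x‖
  rw [he x, norm_algEquiv]

theorem nrm_fieldEquiv (hL : IsImage g L₁ L₂) (x : L₁) :
    nrm q (fieldEquiv hL x) = nrm q x :=
  norm_algEquiv g _

/-- The valuation rings correspond. -/
def intRingEquiv (he : IsCompat g e) : intRing q F₁ ≃+* intRing q F₂ where
  toFun x := ⟨e x, (H66.mem_intRing_iff q F₂ _).2 (by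
    rw [he.nrm_eq]; exact (H66.mem_intRing_iff q F₁ _).1 x.2)⟩
  invFun y := ⟨e.symm y, (H66.mem_intRing_iff q F₁ _).2 (by
    rw [he.symm.nrm_eq]; exact (H66.mem_intRing_iff q F₂ _).1 y.2)⟩
  left_inv x := Subtype.ext (e.symm_apply_apply _)
  right_inv y := Subtype.ext (e.apply_symm_apply _)
  map_mul' x y := Subtype.ext (map_mul e _ _)
  map_add' x y := Subtype.ext (map_add e _ _)

theorem IsCompat.resCard_eq (he : IsCompat g e) : resCard q F₂ = resCard q F₁ := by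
  unfold resCard
  exact (Nat.card_congr (IsLocalRing.ResidueField.mapEquiv (intRingEquiv he)).toEquiv).symm

theorem IsCompat.unifNrm_eq (he : IsCompat g e) : unifNrm q F₂ = unifNrm q F₁ := by
  unfold unifNrm
  congr 1
  ext r
  constructor
  · rintro ⟨hr, y, hy⟩
    exact ⟨hr, e.symm y, by rw [he.symm.nrm_eq]; exact hy⟩
  · rintro ⟨hr, y, hy⟩
    exact ⟨hr, e y, by rw [he.nrm_eq]; exact hy⟩

/-- The pull-back of an intermediate field along `g`. -/
def pullField (he : IsCompat g e) (M : IntermediateField F₂ (PadicAlgCl q)) :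
    IntermediateField F₁ (PadicAlgCl q) where
  carrier := {x | g x ∈ M}
  mul_mem' := fun {a b} ha hb => by
    show g (a * b) ∈ M
    rw [map_mul]; exact M.mul_mem ha hb
  one_mem' := by
    show g 1 ∈ M
    rw [map_one]; exact M.one_mem
  add_mem' := fun {a b} ha hb => by
    show g (a + b) ∈ M
    rw [map_add]; exact M.add_mem ha hb
  zero_mem' := by
    show g 0 ∈ M
    rw [map_zero]; exact M.zero_mem
  algebraMap_mem' := fun r => by
    show g (algebraMap F₁ (PadicAlgCl q) r) ∈ M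
    rw [← he r]; exact M.algebraMap_mem _
  inv_mem' := fun a ha => by
    show g a⁻¹ ∈ M
    rw [map_inv₀]; exact M.inv_mem ha

theorem mem_pullField (he : IsCompat g e) (M : IntermediateField F₂ (PadicAlgCl q))
    (x : PadicAlgCl q) : x ∈ pullField he M ↔ g x ∈ M := Iff.rfl

/-- Adjoining corresponding sets gives corresponding fields. -/
theorem isImage_adjoin (he : IsCompat g e) {S₁ S₂ : Set (PadicAlgCl q)}
    (hS : ∀ x, x ∈ S₁ ↔ g x ∈ S₂) :
    IsImage g (IntermediateField.adjoin F₁ S₁) (IntermediateField.adjoin F₂ S₂) := by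
  intro x
  constructor
  · intro hx
    have h1 : IntermediateField.adjoin F₁ S₁ ≤ pullField he (IntermediateField.adjoin F₂ S₂) :=
      IntermediateField.adjoin_le_iff.2
        (fun s hs => IntermediateField.subset_adjoin F₂ S₂ ((hS s).1 hs))
    exact h1 hx
  · intro hx
    have h1 : IntermediateField.adjoin F₂ S₂ ≤
        pullField he.symm (IntermediateField.adjoin F₁ S₁) :=
      IntermediateField.adjoin_le_iff.2 (fun s hs => by
        show g.symm s ∈ IntermediateField.adjoin F₁ S₁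
        refine IntermediateField.subset_adjoin F₁ S₁ ((hS _).2 ?_)
        rwa [g.apply_symm_apply])
    have h2 := h1 hx
    rwa [mem_pullField, g.symm_apply_apply] at h2

/-- The unramified extensions correspond. -/
theorem isImage_unramExt (he : IsCompat g e) (n : ℕ) :
    IsImage g (unramExt q F₁ n) (unramExt q F₂ n) := by
  refine isImage_adjoin he (fun x => ?_)
  show x ^ (resCard q F₁ ^ n - 1) = 1 ↔ g x ^ (resCard q F₂ ^ n - 1) = 1
  rw [he.resCard_eq, ← map_pow, map_eq_one_iff g g.injective]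

/-- Composita correspond. -/
theorem isImage_sup (he : IsCompat g e) (hL : IsImage g L₁ L₂) (hM : IsImage g M₁ M₂) :
    IsImage g (L₁ ⊔ M₁) (L₂ ⊔ M₂) := by
  intro x
  constructor
  · intro hx
    have h1 : L₁ ⊔ M₁ ≤ pullField he (L₂ ⊔ M₂) :=
      sup_le (fun y hy => (le_sup_left : L₂ ≤ L₂ ⊔ M₂) ((hL y).1 hy))
        (fun y hy => (le_sup_right : M₂ ≤ L₂ ⊔ M₂) ((hM y).1 hy))
    exact h1 hx
  · intro hx
    have h1 : L₂ ⊔ M₂ ≤ pullField he.symm (L₁ ⊔ M₁) :=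
      sup_le (fun y hy => (le_sup_left : L₁ ≤ L₁ ⊔ M₁) (hL.symm_mem hy))
        (fun y hy => (le_sup_right : M₁ ≤ L₁ ⊔ M₁) (hM.symm_mem hy))
    have h2 := h1 hx
    rwa [mem_pullField, g.symm_apply_apply] at h2

/-- Transport of the Frobenius. -/
theorem isFrob_galMap (he : IsCompat g e) (hL : IsImage g L₁ L₂) {φ₂ : L₂ ≃ₐ[F₂] L₂}
    (h : IsFrob q L₂ φ₂) : IsFrob q L₁ (galMap he hL φ₂) := by
  intro x hx
  have h1 := h (fieldEquiv hL x) (by rw [nrm_fieldEquiv]; exact hx)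
  rw [he.resCard_eq, ← fieldEquiv_galMap he hL, ← map_pow, ← map_sub, nrm_fieldEquiv] at h1
  exact h1

end Norm

/-! ### The main theorem -/

section Main

variable {F₁ F₂ : Type} [Field F₁] [Field F₂] [Algebra F₁ (PadicAlgCl q)]
  [Algebra F₂ (PadicAlgCl q)]
variable {g : PadicAlgCl q ≃ₐ[ℚ_[q]] PadicAlgCl q} {e : F₁ ≃+* F₂}
variable {L₁ : IntermediateField F₁ (PadicAlgCl q)} {L₂ : IntermediateField F₂ (PadicAlgCl q)}

theorem transRep_baseUnit (he : IsCompat g e) (hL : IsImage g L₁ L₂) (a : F₁ˣ) :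
    (transRep he hL).hom (baseUnit L₁ a) =
      baseUnit L₂ (Units.map ((e : F₁ →+* F₂) : F₁ →* F₂) a) := by
  apply H24.toUnit_injective
  apply Units.ext
  exact fieldEquiv_algebraMap he hL (a : F₁)

/-- Transport of cyclic classes. -/
theorem transH2_cycClass (he : IsCompat g e) (hL : IsImage g L₁ L₂)
    [Finite (L₁ ≃ₐ[F₁] L₁)] [Finite (L₂ ≃ₐ[F₂] L₂)] (φ₂ : L₂ ≃ₐ[F₂] L₂)
    (hgen : ∀ τ : L₂ ≃ₐ[F₂] L₂, τ ∈ Subgroup.zpowers φ₂) (a : F₁ˣ) :
    (transH2 he hL).hom (cycClass (Rep.ofAlgebraAutOnUnits F₁ L₁) (galMap he hL φ₂)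
        (baseUnit L₁ a)) =
      cycClass (Rep.ofAlgebraAutOnUnits F₂ L₂) φ₂
        (baseUnit L₂ (Units.map ((e : F₁ →+* F₂) : F₁ →* F₂) a)) := by
  have hgen₁ : ∀ τ : L₁ ≃ₐ[F₁] L₁, τ ∈ Subgroup.zpowers (galMap he hL φ₂) := by
    intro τ
    obtain ⟨β, rfl⟩ := galMap_surjective he hL τ
    obtain ⟨k, rfl⟩ := Subgroup.mem_zpowers_iff.1 (hgen β)
    exact Subgroup.mem_zpowers_iff.2 ⟨k, (map_zpow (galMap he hL) φ₂ k).symm⟩
  have h := H80.leafCycRes ℤ (L₁ ≃ₐ[F₁] L₁) (L₂ ≃ₐ[F₂] L₂) (Rep.ofAlgebraAutOnUnits F₁ L₁)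
    (Rep.ofAlgebraAutOnUnits F₂ L₂) (galMap he hL) (transRep he hL) (galMap he hL φ₂) φ₂ 1
    hgen₁ hgen (galMap_injective he hL) (pow_one _).symm
    (by rw [one_mul]; exact (orderOf_injective _ (galMap_injective he hL) φ₂).symm)
    (baseUnit L₁ a) (H24.baseUnit_invariant L₁ a)
  rw [transRep_baseUnit he hL a] at h
  exact h

variable [Algebra ℚ_[q] F₁] [IsScalarTower ℚ_[q] F₁ (PadicAlgCl q)] [FiniteDimensional ℚ_[q] F₁]
  [Algebra ℚ_[q] F₂] [IsScalarTower ℚ_[q] F₂ (PadicAlgCl q)] [FiniteDimensional ℚ_[q] F₂]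

theorem IsCompat.ord_eq (he : IsCompat g e) {a : F₁} (ha : a ≠ 0) :
    ord q (e a) = ord q a := by
  refine H24.ord_eq_of_nrm_eq (leafOrd q) ((map_ne_zero e).2 ha) ?_
  rw [he.nrm_eq, he.unifNrm_eq]
  exact (leafOrd q F₁).2.2.2 a ha

/-- The unramified case of the transport theorem. -/
theorem inv_transH2_unram (he : IsCompat g e) (n : ℕ) (hn : 0 < n)
    [Normal F₁ (unramExt q F₁ n)] [Normal F₂ (unramExt q F₂ n)]
    (y : groupCohomology.H2 (Rep.ofAlgebraAutOnUnits F₁ (unramExt q F₁ n))) :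
    inv q (unramExt q F₂ n) ((transH2 he (isImage_unramExt he n)).hom y) =
      inv q (unramExt q F₁ n) y := by
  obtain ⟨hfin₁, hrank₁, hgal₁, -, hun₁⟩ := c3_unram q F₁ n hn
  obtain ⟨hfin₂, hrank₂, hgal₂, -, hun₂⟩ := c3_unram q F₂ n hn
  haveI := hfin₁
  haveI := hgal₁
  haveI := hfin₂
  haveI := hgal₂
  obtain ⟨φ₂, hφ₂, -, hgen₂⟩ := c3_frob q F₂ (unramExt q F₂ n) hun₂
  have hU := isImage_unramExt (q := q) he n
  have hφ₁ : IsFrob q (unramExt q F₁ n) (galMap he hU φ₂) := isFrob_galMap he hU hφ₂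
  have hgen₁ : ∀ τ : unramExt q F₁ n ≃ₐ[F₁] unramExt q F₁ n,
      τ ∈ Subgroup.zpowers (galMap he hU φ₂) := by
    intro τ
    obtain ⟨β, rfl⟩ := galMap_surjective he hU τ
    obtain ⟨k, rfl⟩ := Subgroup.mem_zpowers_iff.1 (hgen₂ β)
    exact Subgroup.mem_zpowers_iff.2 ⟨k, (map_zpow (galMap he hU) φ₂ k).symm⟩
  obtain ⟨a', ha', rfl⟩ := H37.leafCycSurj ℤ _ (Rep.ofAlgebraAutOnUnits F₁ (unramExt q F₁ n))
    (galMap he hU φ₂) hgen₁ y
  obtain ⟨a, rfl⟩ := H24.exists_baseUnit_of_invariant _ a' ha'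
  rw [transH2_cycClass he hU φ₂ hgen₂ a,
    c3_invUnr q F₂ (unramExt q F₂ n) hun₂ φ₂ hφ₂,
    c3_invUnr q F₁ (unramExt q F₁ n) hun₁ _ hφ₁, hrank₁, hrank₂]
  have h3 : ord q (((Units.map ((e : F₁ →+* F₂) : F₁ →* F₂) a : F₂ˣ) : F₂)) = ord q (a : F₁) :=
    he.ord_eq a.ne_zero
  rw [h3]

/-- **Transport of structure for the local invariant**: for `g ∈ Aut(Ω/ℚ_q)` carrying the
extension `L₁/F₁` to `L₂/F₂`, `inv_{L₂/F₂} ∘ g_* = inv_{L₁/F₁}`. -/
theorem inv_transH2 (he : IsCompat g e) (hL : IsImage g L₁ L₂)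
    [FiniteDimensional F₁ L₁] [IsGalois F₁ L₁] [FiniteDimensional F₂ L₂] [IsGalois F₂ L₂]
    (x : groupCohomology.H2 (Rep.ofAlgebraAutOnUnits F₁ L₁)) :
    inv q L₂ ((transH2 he hL).hom x) = inv q L₁ x := by
  have hn : 0 < Module.finrank F₁ L₁ := Module.finrank_pos
  obtain ⟨hfin₁, -, hgal₁, -, -⟩ := c3_unram q F₁ (Module.finrank F₁ L₁) hn
  obtain ⟨hfin₂, -, hgal₂, -, -⟩ := c3_unram q F₂ (Module.finrank F₁ L₁) hn
  haveI := hfin₁
  haveI := hgal₁
  haveI := hfin₂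
  haveI := hgal₂
  haveI : IsGalois F₁ ↥(L₁ ⊔ unramExt q F₁ (Module.finrank F₁ L₁)) := ⟨⟩
  haveI : IsGalois F₂ ↥(L₂ ⊔ unramExt q F₂ (Module.finrank F₁ L₁)) := ⟨⟩
  obtain ⟨y, hy⟩ := exists_unram_lift (c3_unram q) (c3_h2Unram q) (c3_h2Le q) (c3_inflInj q)
    (c3_infRes q) (c3_resInflUnram q) F₁ L₁ x
  have hU := isImage_unramExt (q := q) he (Module.finrank F₁ L₁)
  have hS := isImage_sup he hL hU
  have e1 := c3_invInfl q F₁ L₁ (L₁ ⊔ unramExt q F₁ (Module.finrank F₁ L₁)) le_sup_left x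
  have e2 := c3_invInfl q F₁ (unramExt q F₁ (Module.finrank F₁ L₁))
    (L₁ ⊔ unramExt q F₁ (Module.finrank F₁ L₁)) le_sup_right y
  have e3 := c3_invInfl q F₂ L₂ (L₂ ⊔ unramExt q F₂ (Module.finrank F₁ L₁)) le_sup_left
    ((transH2 he hL).hom x)
  have e4 := c3_invInfl q F₂ (unramExt q F₂ (Module.finrank F₁ L₁))
    (L₂ ⊔ unramExt q F₂ (Module.finrank F₁ L₁)) le_sup_right ((transH2 he hU).hom y)
  have e5 := inflH2_transH2_apply he hL hS le_sup_left le_sup_left x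
  have e6 := inflH2_transH2_apply he hU hS le_sup_right le_sup_right y
  rw [← e1, ← e3, ← e5, ← hy, e6, e4, e2]
  exact inv_transH2_unram he _ hn y

end Main

end Fermat.Agent.S55.H20
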