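/-
Program C (S55), package C5 (helper88's layer terms), leaf (LINV-INDEP), helper20:

THE LOCAL INVARIANT `H88.linvAt q k τ'` DEPENDS ONLY ON THE PLACE OF `k` BELOW `τ'`.

If `τ'' ∘ s = g ∘ τ'` with `g ∈ Aut(Ω/ℚ_q)` and `s ∈ Gal(K/k)` then the localisation map at `τ''`
is the localisation map at `τ'` followed by the transport `H20.transH2` along `g`
(`locH2_conj`, using that inner automorphisms act trivially on `H²`, `H20.map_conj_H2`), and the
local invariant is invariant under transport (`H20.inv_transH2`).  Hence
`linvAt q k τ'' = linvAt q k τ'` (`linvAt_eq_of_conj`), and `H88.LinvIndepStatement k K` holds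
for every finite normal extension `K / k` of a number field (`linvIndep`).
-/
import Mathlib
import Fermat.Agent.S55.H20.InvTransport
import Fermat.Agent.S55.H20.ConjH2
import Fermat.Agent.S55.H20.Decomp
import Fermat.Agent.S55.H88.LayerSpec

set_option autoImplicit false

open scoped IntermediateField
open CategoryTheory

noncomputable section

namespace Fermat.Agent.S55.H20

open Fermat.Agent.S55.H66 Fermat.Agent.S55.H88

variable {q : ℕ} [Fact q.Prime]

/-- The trivially compatible datum over `ℚ_q`. -/
theorem isCompat_refl (g : PadicAlgCl q ≃ₐ[ℚ_[q]] PadicAlgCl q) :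
    IsCompat g (RingEquiv.refl ℚ_[q]) := fun x => (g.commutes x).symm

section Setup

variable (k : Type) {K : Type} [Field k] [Field K] [Algebra k K]
variable {τ' τ'' : K →+* PadicAlgCl q} {g : PadicAlgCl q ≃ₐ[ℚ_[q]] PadicAlgCl q}
  {s : K ≃ₐ[k] K}

theorem isImage_locField (h : ∀ x : K, τ'' (s x) = g (τ' x)) :
    IsImage g (locField q τ') (locField q τ'') := by
  refine isImage_adjoin (isCompat_refl g) (fun x => ?_)
  constructor
  · rintro ⟨y, rfl⟩
    exact ⟨s y, h y⟩
  · rintro ⟨y, hy⟩
    refine ⟨s.symm y, g.injective ?_⟩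
    rw [← h, s.apply_symm_apply, hy]

theorem isImage_locBase (h : ∀ x : K, τ'' (s x) = g (τ' x)) :
    IsImage g (locBase q k τ') (locBase q k τ'') := by
  have h' : ∀ y : k, τ'' (algebraMap k K y) = g (τ' (algebraMap k K y)) := by
    intro y
    rw [← h, s.commutes]
  refine isImage_adjoin (isCompat_refl g) (fun x => ?_)
  constructor
  · rintro ⟨y, rfl⟩
    exact ⟨y, h' y⟩
  · rintro ⟨y, hy⟩
    refine ⟨y, g.injective ?_⟩
    rw [← hy]
    exact (h' y).symm

/-- The isomorphism `k_v ≃ k_{v'}` induced by `g`. -/
def locBaseEquiv (h : ∀ x : K, τ'' (s x) = g (τ' x)) : locBase q k τ' ≃+* locBase q k τ'' :=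
  fieldEquiv (isImage_locBase k h)

theorem isCompat_locBase (h : ∀ x : K, τ'' (s x) = g (τ' x)) :
    IsCompat (F₁ := locBase q k τ') (F₂ := locBase q k τ'') g (locBaseEquiv k h) :=
  fun _ => rfl

theorem isImage_locExt (h : ∀ x : K, τ'' (s x) = g (τ' x)) :
    IsImage g (locExt q k τ') (locExt q k τ'') :=
  fun x => isImage_locField k h x

variable [Normal k K]

/-- The decomposition-group maps at `τ'` and `τ''` differ by transport and conjugation. -/
theorem locGalToGlobal_conj (h : ∀ x : K, τ'' (s x) = g (τ' x)) :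
    locGalToGlobal q k τ'' =
      (conjHom s).comp ((locGalToGlobal q k τ').comp
        (galMap (isCompat_locBase k h) (isImage_locExt k h))) := by
  refine MonoidHom.ext fun α => AlgEquiv.ext fun x => τ''.injective ?_
  have h1 : τ'' (locGalToGlobal q k τ'' α x) =
      ((α (locExtEmb q k τ'' x) : locExt q k τ'') : PadicAlgCl q) :=
    (congrArg Subtype.val (locGalToGlobal_spec q k τ'' α x)).symm
  rw [h1]
  show _ = τ'' (s (locGalToGlobal q k τ'
    (galMap (isCompat_locBase k h) (isImage_locExt k h) α) (s⁻¹ x)))
  rw [h]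
  have h2 : τ' (locGalToGlobal q k τ' (galMap (isCompat_locBase k h) (isImage_locExt k h) α)
      (s⁻¹ x)) = ((galMap (isCompat_locBase k h) (isImage_locExt k h) α
        (locExtEmb q k τ' (s⁻¹ x)) : locExt q k τ') : PadicAlgCl q) :=
    (congrArg Subtype.val (locGalToGlobal_spec q k τ' _ (s⁻¹ x))).symm
  rw [h2, coe_galMap]
  have h3 : fieldEquiv (isImage_locExt k h) (locExtEmb q k τ' (s⁻¹ x)) = locExtEmb q k τ'' x := by
    apply Subtype.ext
    show g (τ' (s⁻¹ x)) = τ'' x
    rw [← h]
    exact congrArg τ'' (s.apply_symm_apply x)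
  rw [h3]

/-- **The localisation maps at conjugate embeddings** differ by the transport along `g`. -/
theorem locH2_conj (h : ∀ x : K, τ'' (s x) = g (τ' x)) :
    groupCohomology.map (locGalToGlobal q k τ'') (globalToLocUnits q k τ'') 2 =
      groupCohomology.map (locGalToGlobal q k τ') (globalToLocUnits q k τ') 2 ≫
        transH2 (isCompat_locBase k h) (isImage_locExt k h) := by
  have key : groupCohomology.map (locGalToGlobal q k τ'') (globalToLocUnits q k τ'') 2 =
      groupCohomology.map ((conjHom s).comp ((locGalToGlobal q k τ').comp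
          (galMap (isCompat_locBase k h) (isImage_locExt k h))))
        ((Rep.resFunctor ((locGalToGlobal q k τ').comp
            (galMap (isCompat_locBase k h) (isImage_locExt k h)))).map
              (conjRepHom (Rep.ofAlgebraAutOnUnits k K) s) ≫
          ((Rep.resFunctor (galMap (isCompat_locBase k h) (isImage_locExt k h))).map
              (globalToLocUnits q k τ') ≫
            transRep (isCompat_locBase k h) (isImage_locExt k h))) 2 := by
    refine groupCohomology.map_congr (locGalToGlobal_conj k h) ?_ 2
    refine LinearMap.ext fun u => ?_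
    refine congrArg Additive.ofMul (Units.ext (Subtype.ext ?_))
    show τ'' ((Additive.toMul (α := Kˣ) u : Kˣ) : K) =
      g (τ' (s⁻¹ ((Additive.toMul (α := Kˣ) u : Kˣ) : K)))
    rw [← h]
    exact (congrArg τ'' (s.apply_symm_apply _)).symm
  rw [key, groupCohomology.map_comp, map_conj_H2, Category.id_comp, groupCohomology.map_comp]
  rfl

end Setup

section Main

variable (k : Type) {K : Type} [Field k] [NumberField k] [Field K] [Algebra k K]
  [FiniteDimensional k K] [Normal k K]
variable {τ' τ'' : K →+* PadicAlgCl q} {g : PadicAlgCl q ≃ₐ[ℚ_[q]] PadicAlgCl q}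
  {s : K ≃ₐ[k] K}

instance finiteDimensional_locExt (τ' : K →+* PadicAlgCl q) :
    FiniteDimensional (locBase q k τ') (locExt q k τ') :=
  finiteDimensional_extendScalars q k τ'

instance isGalois_locExt (τ' : K →+* PadicAlgCl q) :
    IsGalois (locBase q k τ') (locExt q k τ') := ⟨⟩

/-- **(LINV-INDEP), explicit form.** -/
theorem linvAt_eq_of_conj (h : ∀ x : K, τ'' (s x) = g (τ' x)) :
    linvAt q k τ'' = linvAt q k τ' := by
  refine AddMonoidHom.ext fun x => ?_
  show H66.inv q (locExt q k τ'')
      ((groupCohomology.map (locGalToGlobal q k τ'') (globalToLocUnits q k τ'') 2).hom x) =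
    H66.inv q (locExt q k τ')
      ((groupCohomology.map (locGalToGlobal q k τ') (globalToLocUnits q k τ') 2).hom x)
  rw [locH2_conj k h]
  exact inv_transH2 (isCompat_locBase k h) (isImage_locExt k h) _

end Main

/-- **(LINV-INDEP)**: helper88's `LinvIndepStatement` for a finite normal extension of a number
field. -/
theorem linvIndep (k K : Type) [Field k] [NumberField k] [Field K] [Algebra k K]
    [FiniteDimensional k K] [Normal k K] : LinvIndepStatement k K := by
  intro q _ τ' τ'' hrel
  obtain ⟨g, hg⟩ := hrel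
  -- `hg : τ''.comp (algebraMap k K) = g.comp (τ'.comp (algebraMap k K))`
  have h0 : τ''.comp (algebraMap k K) =
      ((g : PadicAlgCl q →+* PadicAlgCl q).comp τ').comp (algebraMap k K) := by
    rw [hg]; rfl
  obtain ⟨s, hs⟩ := exists_algEquiv_comp_eq q τ'' ((g : PadicAlgCl q →+* PadicAlgCl q).comp τ') h0
  have h : ∀ x : K, τ'' (s x) = g (τ' x) := fun x => (RingHom.congr_fun hs x).symm
  exact (linvAt_eq_of_conj k h).symm

end Fermat.Agent.S55.H20
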