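/-
Program C (S55), bridge leaf (UNR-BRIDGE), helper20:

THE PRELUDE'S `IsUnramifiedOutside S` IMPLIES UNRAMIFIEDNESS IN THE EMBEDDING MODEL.

`K : IntermediateField ℚ Qbar` with `K.IsUnramifiedOutside S` (inertia subgroups of the valuation
subrings of `Qbar` above `q ∉ S` fix `K`), `q ∉ S`, `τ : K →+* Ω = PadicAlgCl q` any embedding.
Then every element of the completion `ℚ_q(τ K)` has the norm of an element of `ℚ_q`
(`norm_mem_base_of_isUnramifiedOutside`); in particular `H88.IsUnramifiedAt q k K` for every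
base `k` (`isUnramifiedAt_of_isUnramifiedOutside`).

Local core: an element of `Ω` fixed by the inertia subgroup of `Aut(Ω/ℚ_q)` lies in the field
generated by the roots of unity of order prime to `q`, hence in some `unramExt q ℚ_[q] n`.
-/
import Mathlib
import Fermat.Prelude.Def_GroupCohomology_ContinuousUnramified
import Fermat.Agent.S55.H66.C3Main
import Fermat.Agent.S55.H43.Levels
import Fermat.Agent.S55.H88.SemiLocalSpec

set_option autoImplicit false

open scoped IntermediateField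
open Polynomial

noncomputable section

namespace Fermat.Agent.S55.H20

open Fermat.Agent.S55.H66

/-! ### Local part: the fixed field of the inertia group of `Aut(Ω/ℚ_q)` -/

section Local

variable (q : ℕ) [Fact q.Prime]

/-- `g ∈ Aut(Ω/ℚ_q)` lies in the inertia group: it acts trivially on the residue field. -/
def IsInertiaAut (g : PadicAlgCl q ≃ₐ[ℚ_[q]] PadicAlgCl q) : Prop :=
  ∀ y : PadicAlgCl q, ‖y‖ ≤ 1 → ‖g y - y‖ < 1

/-- The roots of unity of order prime to `q`. -/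
def tameRoots : Set (PadicAlgCl q) := {ζ | ∃ m : ℕ, ¬ q ∣ m ∧ ζ ^ m = 1}

/-- The maximal unramified extension of `ℚ_q` inside `Ω`. -/
def unrMax : IntermediateField ℚ_[q] (PadicAlgCl q) :=
  IntermediateField.adjoin ℚ_[q] (tameRoots q)

variable {q}

/-- An automorphism fixing the roots of unity of order prime to `q` is in the inertia group. -/
theorem isInertiaAut_of_fix (g : PadicAlgCl q ≃ₐ[ℚ_[q]] PadicAlgCl q)
    (hg : ∀ ζ ∈ tameRoots q, g ζ = ζ) : IsInertiaAut q g := by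
  intro y hy
  rcases hy.lt_or_eq with hlt | heq
  · have h1 : ‖g y - y‖ ≤ max ‖g y‖ ‖y‖ := by
      have := IsUltrametricDist.norm_add_le_max (g y) (-y)
      rwa [← sub_eq_add_neg, norm_neg] at this
    rw [H63.norm_algEquiv q g y, max_self] at h1
    exact lt_of_le_of_lt h1 hlt
  · -- Teichmüller representative in `ℚ_q(y)`
    have hint : IsIntegral ℚ_[q] y := Algebra.IsIntegral.isIntegral y
    haveI : FiniteDimensional ℚ_[q] ℚ_[q]⟮y⟯ := IntermediateField.adjoin.finiteDimensional hint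
    let x : ℚ_[q]⟮y⟯ := ⟨y, IntermediateField.mem_adjoin_simple_self ℚ_[q] y⟩
    obtain ⟨ζ, hζ1, hζ2⟩ := H63.exists_teichmuller q (F := ℚ_[q]) ℚ_[q]⟮y⟯ x heq
    have hζ1' : ((ζ : ℚ_[q]⟮y⟯) : PadicAlgCl q) ^ (resCard q ↥ℚ_[q]⟮y⟯ - 1) = 1 := by
      have := congrArg (fun z : ℚ_[q]⟮y⟯ => (z : PadicAlgCl q)) hζ1
      simpa using this
    have hζmem : ((ζ : ℚ_[q]⟮y⟯) : PadicAlgCl q) ∈ tameRoots q :=
      ⟨_, H63.not_dvd_resCard_sub_one q ↥ℚ_[q]⟮y⟯, hζ1'⟩
    have hfix := hg _ hζmem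
    have hζ2' : ‖y - (ζ : PadicAlgCl q)‖ < 1 := hζ2
    have h2 : g y - y = g (y - (ζ : PadicAlgCl q)) + -(y - (ζ : PadicAlgCl q)) := by
      rw [map_sub, hfix]; ring
    rw [h2]
    refine lt_of_le_of_lt (IsUltrametricDist.norm_add_le_max _ _) (max_lt ?_ ?_)
    · rw [H63.norm_algEquiv q g]; exact hζ2'
    · rw [norm_neg]; exact hζ2'

/-- An element fixed by the inertia group lies in the maximal unramified extension. -/
theorem mem_unrMax_of_fixed (x : PadicAlgCl q)
    (h : ∀ g : PadicAlgCl q ≃ₐ[ℚ_[q]] PadicAlgCl q, IsInertiaAut q g → g x = x) :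
    x ∈ unrMax q := by
  refine H63.mem_of_fixed q (F := ℚ_[q]) (unrMax q) x (fun σ => ?_)
  have h1 := h (σ.restrictScalars ℚ_[q]) (isInertiaAut_of_fix _ (fun ζ hζ => by
    have := σ.commutes (⟨ζ, IntermediateField.subset_adjoin ℚ_[q] (tameRoots q) hζ⟩ : unrMax q)
    exact this))
  exact h1

/-- Every element of the maximal unramified extension lies in some `unramExt q ℚ_[q] n`. -/
theorem exists_mem_unramExt_of_mem_unrMax {x : PadicAlgCl q} (hx : x ∈ unrMax q) :
    ∃ n : ℕ, 0 < n ∧ x ∈ unramExt q ℚ_[q] n := by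
  classical
  obtain ⟨T, hT, hxT⟩ := IntermediateField.exists_finset_of_mem_adjoin hx
  have hch : ∀ t : PadicAlgCl q, ∃ m : ℕ, t ∈ T → (¬ q ∣ m ∧ t ^ m = 1) := by
    intro t
    by_cases ht : t ∈ T
    · obtain ⟨m, hm1, hm2⟩ := hT ht
      exact ⟨m, fun _ => ⟨hm1, hm2⟩⟩
    · exact ⟨0, fun h => absurd h ht⟩
  choose m hm using hch
  set M : ℕ := ∏ t ∈ T, m t with hM
  have hqM : ¬ q ∣ M := by
    rw [hM, (Nat.Prime.prime (Fact.out : q.Prime)).dvd_finset_prod_iff]
    rintro ⟨t, ht, hdvd⟩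
    exact (hm t ht).1 hdvd
  have hM0 : M ≠ 0 := fun h0 => hqM (h0 ▸ dvd_zero q)
  have htM : ∀ t ∈ T, t ^ M = 1 := by
    intro t ht
    obtain ⟨c, hc⟩ := Finset.dvd_prod_of_mem m ht
    rw [hM, hc, pow_mul, (hm t ht).2, one_pow]
  obtain ⟨f, hf, hQ⟩ := H63.exists_resCard_eq_pow q ℚ_[q]
  have hcop : Nat.Coprime (resCard q ℚ_[q]) M := by
    rw [hQ]
    exact Nat.Coprime.pow_left f
      ((Nat.Prime.coprime_iff_not_dvd (Fact.out : q.Prime)).2 hqM)
  set n : ℕ := Nat.totient M with hn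
  have hn0 : 0 < n := Nat.totient_pos.2 (Nat.pos_of_ne_zero hM0)
  have hdvd : M ∣ resCard q ℚ_[q] ^ n - 1 := by
    have h1 : resCard q ℚ_[q] ^ n ≡ 1 [MOD M] := Nat.ModEq.pow_totient hcop
    exact (Nat.modEq_iff_dvd' (Nat.one_le_pow _ _ (by
      rw [hQ]; exact pow_pos (Fact.out : q.Prime).pos f))).1 h1.symm
  refine ⟨n, hn0, ?_⟩
  have hle : IntermediateField.adjoin ℚ_[q] (T : Set (PadicAlgCl q)) ≤ unramExt q ℚ_[q] n := by
    rw [unramExt]
    refine IntermediateField.adjoin.mono ℚ_[q] _ _ (fun t ht => ?_)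
    obtain ⟨c, hc⟩ := hdvd
    show t ^ (resCard q ℚ_[q] ^ n - 1) = 1
    rw [hc, pow_mul, htM t ht, one_pow]
  exact hle hxT

/-- **Local core**: an element of `Ω` fixed by the inertia group has the norm of an element of
`ℚ_q`. -/
theorem exists_base_norm_of_fixed (x : PadicAlgCl q)
    (h : ∀ g : PadicAlgCl q ≃ₐ[ℚ_[q]] PadicAlgCl q, IsInertiaAut q g → g x = x) :
    ∃ y : ℚ_[q], ‖x‖ = ‖algebraMap ℚ_[q] (PadicAlgCl q) y‖ := by
  obtain ⟨n, hn, hxn⟩ := exists_mem_unramExt_of_mem_unrMax (mem_unrMax_of_fixed x h)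
  obtain ⟨y, hy⟩ := (c3_unram q ℚ_[q] n hn).2.2.2.2 ⟨x, hxn⟩
  exact ⟨y, hy⟩

end Local

/-! ### Global part: valuation subrings of `Qbar` from embeddings into `Ω` -/

section Global

variable {q : ℕ} [Fact q.Prime]

/-- The valuation subring of `Qbar` induced by an embedding into `Ω`. -/
def embValSubring (ι : AlgebraicClosure ℚ →+* PadicAlgCl q) :
    ValuationSubring (AlgebraicClosure ℚ) :=
  ((Valued.v : Valuation (PadicAlgCl q) NNReal).valuationSubring).comap ι

theorem mem_embValSubring (ι : AlgebraicClosure ℚ →+* PadicAlgCl q) (x : AlgebraicClosure ℚ) :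
    x ∈ embValSubring ι ↔ ‖ι x‖ ≤ 1 := by
  show ‖ι x‖₊ ≤ 1 ↔ ‖ι x‖ ≤ 1
  rw [← NNReal.coe_le_coe]
  rfl

theorem mem_nonunits_embValSubring (ι : AlgebraicClosure ℚ →+* PadicAlgCl q)
    (x : AlgebraicClosure ℚ) : x ∈ (embValSubring ι).nonunits ↔ ‖ι x‖ < 1 := by
  by_cases hx : x = 0
  · subst hx
    rw [map_zero, norm_zero]
    refine ⟨fun _ => one_pos, fun _ => ?_⟩
    have h0 := (ValuationSubring.inv_mem_nonunits_iff (A := embValSubring ι)
      (x := (0 : AlgebraicClosure ℚ))).2 (Or.inl rfl)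
    rwa [inv_zero] at h0
  · have hpos : 0 < ‖ι x‖ := norm_pos_iff.2 ((map_ne_zero ι).2 hx)
    have h1 := ValuationSubring.inv_mem_nonunits_iff (A := embValSubring ι) (x := x⁻¹)
    rw [inv_inv] at h1
    rw [h1, mem_embValSubring, map_inv₀, norm_inv]
    constructor
    · rintro (h | h)
      · exact absurd (inv_eq_zero.1 h) hx
      · rw [not_le] at h
        exact (one_lt_inv₀ hpos).1 h
    · intro h
      right
      rw [not_le]
      exact (one_lt_inv₀ hpos).2 h

local instance isAlgebraicQbar_h20 : Algebra.IsAlgebraic ℚ (AlgebraicClosure ℚ) :=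
  AlgebraicClosure.isAlgebraic ℚ
local instance isAlgClosureQbar_h20 : IsAlgClosure ℚ (AlgebraicClosure ℚ) :=
  ⟨inferInstance, inferInstance⟩
local instance normalQbar_h20 : Normal ℚ (AlgebraicClosure ℚ) :=
  IsAlgClosure.normal ℚ (AlgebraicClosure ℚ)

/-- **(UNR-BRIDGE)**: if `K` is unramified outside `S` in the sense of the Prelude and `q ∉ S`,
then every element of the completion `ℚ_q(τ K)` of `K` at any embedding `τ : K → Ω` has the norm
of an element of `ℚ_q`. -/
theorem norm_mem_base_of_isUnramifiedOutside (S : Finset Nat.Primes)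
    (K : IntermediateField ℚ (AlgebraicClosure ℚ)) (hK : K.IsUnramifiedOutside S)
    (q : ℕ) [Fact q.Prime] (hq : ∀ q' : Nat.Primes, (q' : ℕ) = q → q' ∉ S)
    (τ : K →+* PadicAlgCl q) (x : PadicAlgCl q) (hx : x ∈ H88.locField q τ) :
    ∃ y : ℚ_[q], ‖x‖ = ‖algebraMap ℚ_[q] (PadicAlgCl q) y‖ := by
  haveI : Algebra.IsAlgebraic K (AlgebraicClosure ℚ) :=
    Algebra.IsAlgebraic.tower_top (K := ℚ) K
  obtain ⟨ι, hι⟩ := H88.exists_extend q (k := K) (K := AlgebraicClosure ℚ) τ
  have hιτ : ∀ z : K, ι (z : AlgebraicClosure ℚ) = τ z := fun z => RingHom.congr_fun hι z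
  have hA : (embValSubring ι).LiesOverPrime q := by
    show ((q : ℕ) : AlgebraicClosure ℚ) ∈ (embValSubring ι).nonunits
    rw [mem_nonunits_embValSubring, map_natCast]
    have h1 : ((q : ℕ) : PadicAlgCl q) = algebraMap ℚ_[q] (PadicAlgCl q) ((q : ℕ) : ℚ_[q]) := by
      simp
    rw [h1, PadicAlgCl.norm_extends, Padic.norm_p]
    exact inv_lt_one_of_one_lt₀ (by exact_mod_cast (Fact.out : q.Prime).one_lt)
  have hin := hK.2 ⟨q, Fact.out⟩ (hq ⟨q, Fact.out⟩ rfl) (embValSubring ι) hA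
  refine exists_base_norm_of_fixed x (fun g hg => ?_)
  obtain ⟨σ, hσ⟩ := H88.exists_algEquiv_comp_eq q (k := ℚ) ι
    ((g : PadicAlgCl q →+* PadicAlgCl q).comp ι) (Subsingleton.elim _ _)
  have hσ' : ∀ z : AlgebraicClosure ℚ, g (ι z) = ι (σ z) := fun z => RingHom.congr_fun hσ z
  have hσin : σ ∈ (embValSubring ι).inertiaSubgroupIn ℚ := by
    rw [H43.mem_inertiaSubgroupIn_iff]
    intro z hz
    rw [mem_nonunits_embValSubring, map_sub, ← hσ']
    exact hg (ι z) ((mem_embValSubring ι z).1 hz)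
  have hfix : ∀ z : K, g (τ z) = τ z := by
    intro z
    have h1 : σ (z : AlgebraicClosure ℚ) = z :=
      (IntermediateField.mem_fixingSubgroup_iff K σ).1 (hin hσin) z z.2
    rw [← hιτ, hσ', h1]
  have key : ∀ z ∈ IntermediateField.adjoin ℚ_[q] (Set.range τ), g z = z := by
    intro z hz
    induction hz using IntermediateField.adjoin_induction with
    | mem z hz =>
      obtain ⟨w, rfl⟩ := hz
      exact hfix w
    | algebraMap r => exact g.commutes r
    | add a b _ _ ha hb => rw [map_add, ha, hb]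
    | inv a _ ha => rw [map_inv₀, ha]
    | mul a b _ _ ha hb => rw [map_mul, ha, hb]
  exact key x hx

/-- **(UNR-BRIDGE), consumer form**: `H88.IsUnramifiedAt q k K` for every base `k`. -/
theorem isUnramifiedAt_of_isUnramifiedOutside (S : Finset Nat.Primes)
    (K : IntermediateField ℚ (AlgebraicClosure ℚ)) (hK : K.IsUnramifiedOutside S)
    (q : ℕ) [Fact q.Prime] (hq : ∀ q' : Nat.Primes, (q' : ℕ) = q → q' ∉ S)
    (k : Type) [Field k] [Algebra k K] : H88.IsUnramifiedAt q k K := by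
  intro τ x hx
  obtain ⟨y, hy⟩ := norm_mem_base_of_isUnramifiedOutside S K hK q hq τ x hx
  exact ⟨algebraMap ℚ_[q] (PadicAlgCl q) y, IntermediateField.algebraMap_mem _ y, hy⟩

/-- The same for a prime given as an element of `Nat.Primes` (the shape of `H88.FinPlace`). -/
theorem isUnramifiedAt_of_isUnramifiedOutside' (S : Finset Nat.Primes)
    (K : IntermediateField ℚ (AlgebraicClosure ℚ)) (hK : K.IsUnramifiedOutside S)
    (q : Nat.Primes) (hq : q ∉ S) (k : Type) [Field k] [Algebra k K] :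
    haveI : Fact (q : ℕ).Prime := ⟨q.2⟩
    H88.IsUnramifiedAt (q : ℕ) k K := by
  haveI : Fact (q : ℕ).Prime := ⟨q.2⟩
  refine isUnramifiedAt_of_isUnramifiedOutside S K hK (q : ℕ) (fun q' h => ?_) k
  have : q' = q := Subtype.ext h
  rw [this]
  exact hq

end Global

end Fermat.Agent.S55.H20
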