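/-
Program C (S55), leaf (HL-b) UNIF of helper56's `hlam` decomposition, helper20:

at a prime `q ∉ S`, the completion of a field `K ⊆ Qbar` unramified outside `S` has uniformiser
norm `1/q`:  `H66.unifNrm q (H88.locField q τ) = q⁻¹`  (`unifNrm_locField_eq`).
General form: a subfield of `Ω` all of whose norms are norms of elements of `ℚ_q`
(`unifNrm_eq_inv_of_norm_base`).
-/
import Mathlib
import Fermat.Agent.S55.H20.UnrBridge
import Fermat.Agent.S55.H88.LayerDefs

set_option autoImplicit false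

open scoped IntermediateField

noncomputable section

namespace Fermat.Agent.S55.H20

open Fermat.Agent.S55.H66

/-- If every norm of `F ⊆ Ω` is the norm of an element of `ℚ_q`, then the uniformiser norm of
`F` is `1/q`. -/
theorem unifNrm_eq_inv_of_norm_base (q : ℕ) [Fact q.Prime] (F : Type) [Field F]
    [Algebra F (PadicAlgCl q)]
    (h : ∀ x : F, ∃ y : ℚ_[q], nrm q x = ‖algebraMap ℚ_[q] (PadicAlgCl q) y‖) :
    unifNrm q F = (q : ℝ)⁻¹ := by
  have hq1 : nrm q ((q : ℕ) : F) = (q : ℝ)⁻¹ := by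
    show ‖algebraMap F (PadicAlgCl q) ((q : ℕ) : F)‖ = _
    rw [map_natCast]
    have h1 : ((q : ℕ) : PadicAlgCl q) = algebraMap ℚ_[q] (PadicAlgCl q) ((q : ℕ) : ℚ_[q]) := by
      simp
    rw [h1, PadicAlgCl.norm_extends, Padic.norm_p]
  have hqpos : (0 : ℝ) < (q : ℝ)⁻¹ :=
    inv_pos.2 (by exact_mod_cast (Fact.out : q.Prime).pos)
  have hπ0 : ((q : ℕ) : F) ≠ 0 := by
    intro h0
    rw [h0] at hq1
    have h2 : nrm q (0 : F) = 0 := by simp [nrm]
    rw [h2] at hq1
    exact hqpos.ne hq1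
  have hπ1 : nrm q ((q : ℕ) : F) < 1 := by
    rw [hq1]
    exact inv_lt_one_of_one_lt₀ (by exact_mod_cast (Fact.out : q.Prime).one_lt)
  rw [unifNrm_eq q F ((q : ℕ) : F) hπ0 hπ1 ?_, hq1]
  intro x hx
  obtain ⟨y, hy⟩ := h x
  have hy0 : y ≠ 0 := by
    rintro rfl
    rw [map_zero, norm_zero] at hy
    apply hx
    have h3 : ‖algebraMap F (PadicAlgCl q) x‖ = 0 := hy
    rwa [norm_eq_zero, map_eq_zero] at h3
  refine ⟨y.valuation, ?_⟩
  rw [hy, hq1, PadicAlgCl.norm_extends, Padic.norm_eq_zpow_neg_valuation hy0, inv_zpow, zpow_neg]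

attribute [local instance] H88.factOfPrimes

/-- **(HL-b) UNIF**: the uniformiser norm of the completion at `q ∉ S` of a field unramified
outside `S` is `1/q`. -/
theorem unifNrm_locField_eq (S : Finset Nat.Primes)
    (K : IntermediateField ℚ (AlgebraicClosure ℚ)) (hK : K.IsUnramifiedOutside S)
    (q : Nat.Primes) (hq : q ∉ S) (τ : ↥K →+* PadicAlgCl (q : ℕ)) :
    unifNrm (q : ℕ) (H88.locField (q : ℕ) τ) = ((q : ℕ) : ℝ)⁻¹ := by
  refine unifNrm_eq_inv_of_norm_base (q : ℕ) _ (fun x => ?_)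
  exact norm_mem_base_of_isUnramifiedOutside S K hK (q : ℕ)
    (fun q' h => by
      have : q' = q := Subtype.ext h
      rw [this]
      exact hq) τ (x : PadicAlgCl (q : ℕ)) x.2

/-- The same for the base field `k_v` of helper88's layer `layerOf ↥F ↥L`: `F ≤ L` subfields of
`Qbar`, `F` unramified outside `S`, `τ'` an embedding of (a type over) `F`. -/
theorem unifNrm_locBase_eq (S : Finset Nat.Primes)
    (F : IntermediateField ℚ (AlgebraicClosure ℚ)) (hF : F.IsUnramifiedOutside S)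
    (q : Nat.Primes) (hq : q ∉ S) (K : Type) [Field K] [Algebra F K]
    (τ' : K →+* PadicAlgCl (q : ℕ)) :
    unifNrm (q : ℕ) (H88.locBase (q : ℕ) F τ') = ((q : ℕ) : ℝ)⁻¹ :=
  unifNrm_locField_eq S F hF q hq (τ'.comp (algebraMap F K))

end Fermat.Agent.S55.H20
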