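/-
Program C (S55), package C5/C3, helper20: ADAPTER form of the transport theorem
`H20.inv_transH2`, with the binders of helper88's interface (`inv_conj`):

`F₁ F₂ : IntermediateField ℚ_[q] Ω`, `L_i : IntermediateField F_i Ω` finite Galois,
`g ∈ Aut(Ω/ℚ_q)` with `g(F₁) = F₂`, `g(L₁) = L₂`, and ARBITRARY data
`φ : Gal(L₂/F₂) →* Gal(L₁/F₁)`, `u : L₁ˣ → L₂ˣ` with the pointwise specifications
`s (g x) = g (φ s x)` and `u x = g x`.  Then `inv_{L₂/F₂} ∘ H²(φ, u) = inv_{L₁/F₁}`.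
For `g = 1` this is the change of presentation of the local extension.
-/
import Mathlib
import Fermat.Agent.S55.H20.InvTransport

set_option autoImplicit false

open scoped IntermediateField
open CategoryTheory

noncomputable section

namespace Fermat.Agent.S55.H20

open Fermat.Agent.S55.H66

/-- The pair `(φ, u)` with the pointwise specifications is the transport pair. -/
theorem map_eq_transH2 {q : ℕ} [Fact q.Prime] {F₁ F₂ : Type} [Field F₁] [Field F₂]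
    [Algebra F₁ (PadicAlgCl q)] [Algebra F₂ (PadicAlgCl q)]
    {g : PadicAlgCl q ≃ₐ[ℚ_[q]] PadicAlgCl q} {e : F₁ ≃+* F₂}
    {L₁ : IntermediateField F₁ (PadicAlgCl q)} {L₂ : IntermediateField F₂ (PadicAlgCl q)}
    (he : IsCompat g e) (hL : IsImage g L₁ L₂)
    (φ : (L₂ ≃ₐ[F₂] L₂) →* (L₁ ≃ₐ[F₁] L₁))
    (hφ : ∀ (s : L₂ ≃ₐ[F₂] L₂) (x : L₁) (y : L₂), (y : PadicAlgCl q) = g x →
      ((s y : L₂) : PadicAlgCl q) = g (φ s x))
    (u : Rep.res φ (Rep.ofAlgebraAutOnUnits F₁ L₁) ⟶ Rep.ofAlgebraAutOnUnits F₂ L₂)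
    (hu : ∀ x : Additive L₁ˣ, (((Additive.toMul (u.hom x) : L₂ˣ) : L₂) : PadicAlgCl q) =
      g (((Additive.toMul x : L₁ˣ) : L₁) : PadicAlgCl q)) :
    groupCohomology.map φ u 2 = transH2 he hL := by
  have h1 : φ = galMap he hL := by
    refine MonoidHom.ext fun s => AlgEquiv.ext fun x => Subtype.ext (g.injective ?_)
    rw [coe_galMap, ← hφ s x (fieldEquiv hL x) rfl]
  refine groupCohomology.map_congr h1 ?_ 2
  refine LinearMap.ext fun x => ?_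
  exact congrArg Additive.ofMul (Units.ext (Subtype.ext (hu x)))

/-- **`inv` is invariant under conjugation by `g ∈ Aut(Ω/ℚ_q)`** (interface form). -/
theorem inv_conj (q : ℕ) [Fact q.Prime] (F₁ F₂ : IntermediateField ℚ_[q] (PadicAlgCl q))
    [FiniteDimensional ℚ_[q] F₁] [FiniteDimensional ℚ_[q] F₂]
    (L₁ : IntermediateField F₁ (PadicAlgCl q)) (L₂ : IntermediateField F₂ (PadicAlgCl q))
    [FiniteDimensional F₁ L₁] [IsGalois F₁ L₁] [FiniteDimensional F₂ L₂] [IsGalois F₂ L₂]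
    (g : PadicAlgCl q ≃ₐ[ℚ_[q]] PadicAlgCl q)
    (hF : ∀ x : PadicAlgCl q, x ∈ F₁ ↔ g x ∈ F₂) (hL : ∀ x : PadicAlgCl q, x ∈ L₁ ↔ g x ∈ L₂)
    (φ : (L₂ ≃ₐ[F₂] L₂) →* (L₁ ≃ₐ[F₁] L₁))
    (hφ : ∀ (s : L₂ ≃ₐ[F₂] L₂) (x : L₁) (y : L₂), (y : PadicAlgCl q) = g x →
      ((s y : L₂) : PadicAlgCl q) = g (φ s x))
    (u : Rep.res φ (Rep.ofAlgebraAutOnUnits F₁ L₁) ⟶ Rep.ofAlgebraAutOnUnits F₂ L₂)
    (hu : ∀ x : Additive L₁ˣ, (((Additive.toMul (u.hom x) : L₂ˣ) : L₂) : PadicAlgCl q) =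
      g (((Additive.toMul x : L₁ˣ) : L₁) : PadicAlgCl q))
    (x : groupCohomology.H2 (Rep.ofAlgebraAutOnUnits F₁ L₁)) :
    H66.inv q L₂ ((groupCohomology.map φ u 2).hom x) = H66.inv q L₁ x := by
  have hF' : IsImage (F₁ := ℚ_[q]) (F₂ := ℚ_[q]) g F₁ F₂ := hF
  have he : IsCompat (F₁ := F₁) (F₂ := F₂) g (fieldEquiv hF') := fun _ => rfl
  have hL' : IsImage g L₁ L₂ := hL
  rw [map_eq_transH2 he hL' φ hφ u hu]
  exact inv_transH2 he hL' x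

/-- The case `g = 1`: **change of presentation** of a local extension. -/
theorem inv_pres (q : ℕ) [Fact q.Prime] (F₁ F₂ : IntermediateField ℚ_[q] (PadicAlgCl q))
    [FiniteDimensional ℚ_[q] F₁] [FiniteDimensional ℚ_[q] F₂]
    (L₁ : IntermediateField F₁ (PadicAlgCl q)) (L₂ : IntermediateField F₂ (PadicAlgCl q))
    [FiniteDimensional F₁ L₁] [IsGalois F₁ L₁] [FiniteDimensional F₂ L₂] [IsGalois F₂ L₂]
    (hF : ∀ x : PadicAlgCl q, x ∈ F₁ ↔ x ∈ F₂) (hL : ∀ x : PadicAlgCl q, x ∈ L₁ ↔ x ∈ L₂)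
    (φ : (L₂ ≃ₐ[F₂] L₂) →* (L₁ ≃ₐ[F₁] L₁))
    (hφ : ∀ (s : L₂ ≃ₐ[F₂] L₂) (x : L₁) (y : L₂), (y : PadicAlgCl q) = x →
      ((s y : L₂) : PadicAlgCl q) = (φ s x : L₁))
    (u : Rep.res φ (Rep.ofAlgebraAutOnUnits F₁ L₁) ⟶ Rep.ofAlgebraAutOnUnits F₂ L₂)
    (hu : ∀ x : Additive L₁ˣ, (((Additive.toMul (u.hom x) : L₂ˣ) : L₂) : PadicAlgCl q) =
      (((Additive.toMul x : L₁ˣ) : L₁) : PadicAlgCl q))
    (x : groupCohomology.H2 (Rep.ofAlgebraAutOnUnits F₁ L₁)) :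
    H66.inv q L₂ ((groupCohomology.map φ u 2).hom x) = H66.inv q L₁ x :=
  inv_conj q F₁ F₂ L₁ L₂ AlgEquiv.refl hF hL φ hφ u hu x

end Fermat.Agent.S55.H20
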