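/-
Program C (S55), bridge leaf (UNR-BRIDGE), type-level form, helper20.

`K : Type` a field with an embedding `K → Qbar` (`[Algebra K Qbar]`) whose image lies in a
subfield `K0` of `Qbar` unramified outside `S` (Prelude sense), `q ∉ S`.  Then
`H88.IsUnramifiedAt q k K` for every base `k` (`isUnramifiedAt_of_unramifiedOutside`).
-/
import Mathlib
import Fermat.Agent.S55.H20.UnrBridge

set_option autoImplicit false

open scoped IntermediateField

noncomputable section

namespace Fermat.Agent.S55.H20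

local instance isAlgebraicQbar_h20' : Algebra.IsAlgebraic ℚ (AlgebraicClosure ℚ) :=
  AlgebraicClosure.isAlgebraic ℚ
local instance isAlgClosureQbar_h20' : IsAlgClosure ℚ (AlgebraicClosure ℚ) :=
  ⟨inferInstance, inferInstance⟩
local instance normalQbar_h20' : Normal ℚ (AlgebraicClosure ℚ) :=
  IsAlgClosure.normal ℚ (AlgebraicClosure ℚ)

/-- **(UNR-BRIDGE), embedding form**: for an embedding `ι : Qbar → Ω` and `K0` unramified
outside `S ∌ q`, every element of `ℚ_q(ι K0)` has the norm of an element of `ℚ_q`. -/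
theorem norm_mem_base_of_embedding (S : Finset Nat.Primes)
    (K0 : IntermediateField ℚ (AlgebraicClosure ℚ)) (hK : K0.IsUnramifiedOutside S)
    (q : ℕ) [Fact q.Prime] (hq : ∀ q' : Nat.Primes, (q' : ℕ) = q → q' ∉ S)
    (ι : AlgebraicClosure ℚ →+* PadicAlgCl q) (x : PadicAlgCl q)
    (hx : x ∈ IntermediateField.adjoin ℚ_[q] (ι '' (K0 : Set (AlgebraicClosure ℚ)))) :
    ∃ y : ℚ_[q], ‖x‖ = ‖algebraMap ℚ_[q] (PadicAlgCl q) y‖ := by
  have h1 : IntermediateField.adjoin ℚ_[q] (ι '' (K0 : Set (AlgebraicClosure ℚ))) ≤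
      H88.locField q (ι.comp (algebraMap K0 (AlgebraicClosure ℚ))) := by
    refine IntermediateField.adjoin.mono ℚ_[q] _ _ ?_
    rintro _ ⟨z, hz, rfl⟩
    exact ⟨⟨z, hz⟩, rfl⟩
  exact norm_mem_base_of_isUnramifiedOutside S K0 hK q hq _ x (h1 hx)

/-- **(UNR-BRIDGE), type-level form.** -/
theorem isUnramifiedAt_of_unramifiedOutside {S : Finset Nat.Primes}
    {K0 : IntermediateField ℚ (AlgebraicClosure ℚ)} (hK : K0.IsUnramifiedOutside S)
    (l : Nat.Primes) (hl : l ∉ S) (k K : Type) [Field k] [Field K] [Algebra k K]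
    [Algebra K (AlgebraicClosure ℚ)]
    (hM : ∀ x : K, algebraMap K (AlgebraicClosure ℚ) x ∈ K0) :
    haveI : Fact (l : ℕ).Prime := ⟨l.2⟩
    H88.IsUnramifiedAt (l : ℕ) k K := by
  haveI : Fact (l : ℕ).Prime := ⟨l.2⟩
  intro τ x hx
  haveI : CharZero K := RingHom.charZero (algebraMap K (AlgebraicClosure ℚ))
  haveI : Algebra.IsAlgebraic K (AlgebraicClosure ℚ) :=
    Algebra.IsAlgebraic.tower_top (K := ℚ) K
  obtain ⟨ι, hι⟩ := H88.exists_extend (l : ℕ) (k := K) (K := AlgebraicClosure ℚ) τ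
  have hle : H88.locField (l : ℕ) τ ≤
      IntermediateField.adjoin ℚ_[(l : ℕ)] (ι '' (K0 : Set (AlgebraicClosure ℚ))) := by
    refine IntermediateField.adjoin.mono ℚ_[(l : ℕ)] _ _ ?_
    rintro _ ⟨z, rfl⟩
    exact ⟨algebraMap K (AlgebraicClosure ℚ) z, hM z, RingHom.congr_fun hι z⟩
  obtain ⟨y, hy⟩ := norm_mem_base_of_embedding S K0 hK (l : ℕ)
    (fun q' h => by
      have : q' = l := Subtype.ext h
      rw [this]
      exact hl) ι x (hle hx)
  exact ⟨algebraMap ℚ_[(l : ℕ)] (PadicAlgCl (l : ℕ)) y, IntermediateField.algebraMap_mem _ y, hy⟩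

end Fermat.Agent.S55.H20
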